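import Mathlib

/-!
# The addition-and-subtraction map computes `(x(P+Q), x(P-Q))`

`WeierstrassCurve.addSubMap` is a triple of quadratic forms sending the symmetric square of the
abscissae of `P` and `Q` to a multiple of the symmetric square of those of `P + Q` and `P - Q`.
-/

set_option autoImplicit false

open WeierstrassCurve WeierstrassCurve.Affine

namespace Fermat.FR

variable {L : Type*} [Field L]

/-- The values of the three addition-and-subtraction forms at a vector of `L`. -/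
noncomputable def addSubVal (W : Affine L) (x : Fin 3 → L) : Fin 3 → L :=
  fun i => (WeierstrassCurve.addSubMap W i).eval x

/-- The first addition-and-subtraction form, written out. -/
lemma addSubVal_zero (W : Affine L) (x : Fin 3 → L) :
    addSubVal W x 0 = x 0 ^ 2 - W.b₄ * x 0 * x 2 - W.b₆ * x 1 * x 2 - W.b₈ * x 2 ^ 2 := by
  simp [addSubVal, WeierstrassCurve.addSubMap]

/-- The second addition-and-subtraction form, written out. -/
lemma addSubVal_one (W : Affine L) (x : Fin 3 → L) :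
    addSubVal W x 1 = 2 * x 1 * x 0 + W.b₂ * x 0 * x 2 + W.b₄ * x 1 * x 2 + W.b₆ * x 2 ^ 2 := by
  simp [addSubVal, WeierstrassCurve.addSubMap]

/-- The third addition-and-subtraction form, written out. -/
lemma addSubVal_two (W : Affine L) (x : Fin 3 → L) :
    addSubVal W x 2 = x 1 ^ 2 - 4 * x 0 * x 2 := by
  simp [addSubVal, WeierstrassCurve.addSubMap]

/-- Evaluating the forms of a curve over `k` in an extension field gives the values for the base
changed curve. -/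
lemma aeval_addSubMap {k : Type*} [CommRing k] [Algebra k L] (W : WeierstrassCurve k)
    (x : Fin 3 → L) (i : Fin 3) :
    MvPolynomial.aeval x (WeierstrassCurve.addSubMap W i) = addSubVal (W⁄L) x i := by
  fin_cases i <;>
    simp [addSubVal_zero, addSubVal_one, addSubVal_two, WeierstrassCurve.addSubMap,
      WeierstrassCurve.baseChange, map_ofNat]

variable {W : Affine L} [DecidableEq L]

/-- **The forms send the symmetric square of `x(P), x(Q)` to a multiple of the symmetric square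
of `x(P + Q), x(P - Q)`.** The multiple may be zero; `noZero_addSubMap` excludes this where
needed. -/
theorem addSubVal_sym2x (P Q : W.Point) :
    ∃ c : L, addSubVal W (P.sym2x Q) = c • (P + Q).sym2x (P - Q) := by
  rcases P with _ | ⟨x₁, y₁, h₁⟩ <;> rcases Q with _ | ⟨x₂, y₂, h₂⟩
  · refine ⟨1, ?_⟩
    rw [one_smul, ← Point.zero_def, add_zero, sub_zero, Point.sym2x_zero_zero]
    funext i; fin_cases i <;> simp [addSubVal_zero, addSubVal_one, addSubVal_two]
  · refine ⟨1, ?_⟩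
    rw [one_smul, ← Point.zero_def, zero_add, zero_sub, Point.sym2x_neg_right,
      Point.sym2x_zero_some, Point.sym2x_some_some]
    funext i; fin_cases i <;> simp [addSubVal_zero, addSubVal_one, addSubVal_two] <;> ring
  · refine ⟨1, ?_⟩
    rw [one_smul, ← Point.zero_def, add_zero, sub_zero, Point.sym2x_some_zero,
      Point.sym2x_some_some]
    funext i; fin_cases i <;> simp [addSubVal_zero, addSubVal_one, addSubVal_two] <;> ring
  · have e₁ := (equation_iff x₁ y₁).mp h₁.1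
    have e₂ := (equation_iff x₂ y₂).mp h₂.1
    by_cases hx : x₁ = x₂
    · subst hx
      -- `Q = ±P`
      have key : ∀ hP : W.Nonsingular x₁ y₁, ∃ c : L,
          addSubVal W ((Point.some x₁ y₁ hP).sym2x (Point.some x₁ y₁ hP)) =
            c • (Point.some x₁ y₁ hP + Point.some x₁ y₁ hP).sym2x 0 := by
        intro hP
        by_cases hy : y₁ = W.negY x₁ y₁
        · refine ⟨addSubVal W ![x₁ * x₁, x₁ + x₁, 1] 0, ?_⟩
          rw [Point.sym2x_some_some, Point.add_self_of_Y_eq hy, Point.sym2x_zero_zero]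
          rw [negY] at hy
          funext i; fin_cases i <;> simp [addSubVal_zero, addSubVal_one, addSubVal_two]
          · simp only [WeierstrassCurve.b₂, WeierstrassCurve.b₄, WeierstrassCurve.b₆]
            linear_combination (2 * y₁ + W.a₁ * x₁ + W.a₃) * hy - 4 * e₁
          · ring
        · refine ⟨(y₁ - W.negY x₁ y₁) ^ 2, ?_⟩
          rw [Point.sym2x_some_some, Point.add_self_of_Y_ne hy, Point.sym2x_some_zero]
          have hd : y₁ - W.negY x₁ y₁ ≠ 0 := sub_ne_zero.mpr hy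
          have hl : W.slope x₁ x₁ y₁ y₁ * (y₁ - W.negY x₁ y₁) =
              3 * x₁ ^ 2 + 2 * W.a₂ * x₁ + W.a₄ - W.a₁ * y₁ := by
            rw [slope_of_Y_ne rfl hy, div_mul_cancel₀ _ hd]
          generalize W.slope x₁ x₁ y₁ y₁ = l at hl ⊢
          simp only [negY] at hl ⊢
          funext i; fin_cases i <;> simp [addSubVal_zero, addSubVal_one, addSubVal_two, addX]
          · simp only [WeierstrassCurve.b₄, WeierstrassCurve.b₆,
              WeierstrassCurve.b₈]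
            linear_combination (8 * x₁ + W.a₁ ^ 2 + 4 * W.a₂) * e₁ -
              (l * (y₁ - (-y₁ - W.a₁ * x₁ - W.a₃)) + (3 * x₁ ^ 2 + 2 * W.a₂ * x₁ + W.a₄ - W.a₁ * y₁)
                + W.a₁ * (y₁ - (-y₁ - W.a₁ * x₁ - W.a₃))) * hl
          · simp only [WeierstrassCurve.b₂, WeierstrassCurve.b₄, WeierstrassCurve.b₆]
            linear_combination -4 * e₁
          · ring
      rcases Y_eq_of_X_eq h₁.1 h₂.1 rfl with hy | hy
      · subst hy
        simpa using key h₁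
      · have hQ : Point.some x₁ y₂ h₂ = -Point.some x₁ y₁ h₁ := by
          rw [Point.neg_some, Point.some.injEq]
          exact ⟨rfl, by rw [hy, negY_negY]⟩
        obtain ⟨c, hc⟩ := key h₁
        refine ⟨c, ?_⟩
        rw [hQ, Point.sym2x_neg_right, hc, add_neg_cancel, sub_neg_eq_add,
          Point.sym2x_comm]
    · refine ⟨(x₁ - x₂) ^ 2, ?_⟩
      have hd : x₁ - x₂ ≠ 0 := sub_ne_zero.mpr hx
      rw [sub_eq_add_neg (Point.some x₁ y₁ h₁), Point.neg_some, Point.add_of_X_ne hx,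
        Point.add_of_X_ne hx, Point.sym2x_some_some, Point.sym2x_some_some]
      have hl : W.slope x₁ x₂ y₁ y₂ * (x₁ - x₂) = y₁ - y₂ := by
        rw [slope_of_X_ne hx, div_mul_cancel₀ _ hd]
      have hm : W.slope x₁ x₂ y₁ (W.negY x₂ y₂) * (x₁ - x₂) = y₁ + y₂ + W.a₁ * x₂ + W.a₃ := by
        rw [slope_of_X_ne hx, div_mul_cancel₀ _ hd, negY]; ring
      generalize W.slope x₁ x₂ y₁ y₂ = l at hl ⊢
      generalize W.slope x₁ x₂ y₁ (W.negY x₂ y₂) = m at hm ⊢
      have kA : (l ^ 2 + W.a₁ * l - W.a₂ - x₁ - x₂) * (x₁ - x₂) ^ 2 =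
          (y₁ - y₂) ^ 2 + W.a₁ * (y₁ - y₂) * (x₁ - x₂) - (W.a₂ + x₁ + x₂) * (x₁ - x₂) ^ 2 := by
        linear_combination (l * (x₁ - x₂) + (y₁ - y₂) + W.a₁ * (x₁ - x₂)) * hl
      have kB : (m ^ 2 + W.a₁ * m - W.a₂ - x₁ - x₂) * (x₁ - x₂) ^ 2 =
          (y₁ + y₂ + W.a₁ * x₂ + W.a₃) ^ 2 + W.a₁ * (y₁ + y₂ + W.a₁ * x₂ + W.a₃) * (x₁ - x₂) -
            (W.a₂ + x₁ + x₂) * (x₁ - x₂) ^ 2 := by
        linear_combination
          (m * (x₁ - x₂) + (y₁ + y₂ + W.a₁ * x₂ + W.a₃) + W.a₁ * (x₁ - x₂)) * hm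
      generalize hA : l ^ 2 + W.a₁ * l - W.a₂ - x₁ - x₂ = A at kA
      generalize hB : m ^ 2 + W.a₁ * m - W.a₂ - x₁ - x₂ = B at kB
      funext i
      fin_cases i <;> simp [addSubVal_zero, addSubVal_one, addSubVal_two, addX, hA, hB] <;>
        try simp only [WeierstrassCurve.b₂, WeierstrassCurve.b₄, WeierstrassCurve.b₆,
          WeierstrassCurve.b₈]
      · refine mul_left_cancel₀ (pow_ne_zero 2 hd) ?_
        linear_combination -(((1 : L) * W.a₆ + (-2 : L) * y₂ * W.a₃ + (-2 : L) * y₂ ^ 2 +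
          (1 : L) * y₁ * W.a₃ + (1 : L) * y₁ ^ 2 + (-1 : L) * x₂ * W.a₁ * W.a₃ +
          (-2 : L) * x₂ * y₂ * W.a₁ + (-2 : L) * x₂ ^ 2 * W.a₂ + (-1 : L) * x₂ ^ 2 * W.a₁ ^ 2 +
          (-2 : L) * x₂ ^ 3 + (1 : L) * x₁ * W.a₄ + (1 : L) * x₁ * W.a₁ * W.a₃ +
          (1 : L) * x₁ * y₁ * W.a₁ + (4 : L) * x₁ * x₂ * W.a₂ + (1 : L) * x₁ * x₂ * W.a₁ ^ 2 +
          (2 : L) * x₁ * x₂ ^ 2 + (-1 : L) * x₁ ^ 2 * W.a₂ + (2 : L) * x₁ ^ 2 * x₂ +
          (-1 : L) * x₁ ^ 3)) * e₁ - (((-1 : L) * W.a₆ + (1 : L) * y₂ * W.a₃ + (1 : L) * y₂ ^ 2 +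
          (1 : L) * x₂ * W.a₄ + (1 : L) * x₂ * W.a₁ * W.a₃ + (1 : L) * x₂ * y₂ * W.a₁ +
          (-1 : L) * x₂ ^ 2 * W.a₂ + (-1 : L) * x₂ ^ 3 + (-2 : L) * x₁ * W.a₄ +
          (-1 : L) * x₁ * W.a₁ * W.a₃ + (4 : L) * x₁ * x₂ * W.a₂ + (1 : L) * x₁ * x₂ * W.a₁ ^ 2 +
          (2 : L) * x₁ * x₂ ^ 2 + (-4 : L) * x₁ ^ 2 * W.a₂ + (-1 : L) * x₁ ^ 2 * W.a₁ ^ 2 +
          (2 : L) * x₁ ^ 2 * x₂ + (-4 : L) * x₁ ^ 3)) * e₂ - B * (x₁ - x₂) ^ 2 * kA -
          ((y₁ - y₂) ^ 2 + W.a₁ * (y₁ - y₂) * (x₁ - x₂) - (W.a₂ + x₁ + x₂) * (x₁ - x₂) ^ 2) * kB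
      · linear_combination -kA - kB - 2 * e₁ - 2 * e₂
      · ring

end Fermat.FR
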