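import Fermat.Agent.FR.Frob

/-!
# `deg(φ - 1)` is the number of rational points

`hz_frob_sub_gen` and `trFrob_eq`: so the `a` of `Frob` is `q + 1 - #W(k)`.
-/

set_option autoImplicit false

open WeierstrassCurve WeierstrassCurve.Affine Polynomial
open scoped WeierstrassCurve.Affine Polynomial.Bivariate

namespace Fermat.FR

variable {k : Type} [Field k] (W : Affine k)

/-- The cubic `x³ + a₂x² + a₄x + a₆`. -/
noncomputable def cub : k[X] :=
  Polynomial.X ^ 3 + C W.a₂ * Polynomial.X ^ 2 + C W.a₄ * Polynomial.X + C W.a₆

/-- `a₁x + a₃`. -/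
noncomputable def lin : k[X] := C W.a₁ * Polynomial.X + C W.a₃

variable {S : Type} [CommRing S] [Algebra k S]

/-- `(u, v)` satisfies the affine equation of the curve in a commutative algebra. -/
def Sol (u v : S) : Prop := v ^ 2 + aeval u (lin W) * v = aeval u (cub W)

variable {W}

/-- Specialisation of the coordinate ring at a solution `(u, v)`. -/
noncomputable def spec {u v : S} (h : Sol W u v) : W.CoordinateRing →ₐ[k] S :=
  AdjoinRoot.liftAlgHom W.polynomial (Polynomial.aeval u) v (by
    have h' := h
    simp only [Sol, lin, cub, map_add, map_mul, map_pow, aeval_X, aeval_C] at h'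
    simp only [Affine.polynomial, ← coe_eval₂RingHom, map_add, map_sub, map_mul, map_pow]
    simp
    linear_combination h')

/-- Specialisation on a polynomial in `x`. -/
lemma spec_C {u v : S} (h : Sol W u v) (p : k[X]) :
    spec h (CoordinateRing.mk W (C p)) = aeval u p := by
  simp [spec, CoordinateRing.mk]

/-- Specialisation sends `Y` to the ordinate. -/
lemma spec_Y {u v : S} (h : Sol W u v) :
    spec h (CoordinateRing.mk W Polynomial.X) = v := by
  simp [spec, CoordinateRing.mk]

variable [Fintype k]

/-- The element `y^q(2y + a₁x + a₃) + (a₁x^q + a₃)y` of the coordinate ring. -/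
noncomputable def brk (W : Affine k) : W.CoordinateRing :=
  CoordinateRing.mk W Polynomial.X ^ Fintype.card k *
      (2 * CoordinateRing.mk W Polynomial.X + CoordinateRing.mk W (C (lin W))) +
    CoordinateRing.mk W (C ((lin W).comp (Polynomial.X ^ Fintype.card k))) *
      CoordinateRing.mk W Polynomial.X

section

variable [DecidableEq (FF' W)]

omit [Fintype k] [DecidableEq (FF' W)] in
/-- The derivative of the equation in `y` does not vanish at the generic point. -/
lemma ff_two_y_ne_zero (hΔ : W.Δ ≠ 0) : 2 * yg W + iX W (lin W) ≠ 0 := by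
  simpa [lin, iX, add_assoc] using two_yg_add_ne_zero hΔ

omit [DecidableEq (FF' W)] in
/-- `brk` in the function field. -/
lemma algebraMap_brk : algebraMap W.CoordinateRing (FF' W) (brk W) =
    yg W ^ Fintype.card k * (2 * yg W + iX W (lin W)) +
      iX W ((lin W).comp (Polynomial.X ^ Fintype.card k)) * yg W := by
  simp only [brk, map_add, map_mul, map_pow, map_ofNat, iX_eq, yg]

omit [Fintype k] in
/-- The involution on the function `y`. -/
lemma invol_yg : invol W (yg W) = -yg W - iX W (lin W) := by
  rw [invol, ev_yg]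
  simp [lin, iX]
  ring

omit [DecidableEq (FF' W)] in
/-- The `q`-th power of the conjugate of `y`. -/
lemma conj_pow : (-yg W - iX W (lin W)) ^ Fintype.card k =
    -(yg W ^ Fintype.card k) - iX W ((lin W).comp (Polynomial.X ^ Fintype.card k)) := by
  rw [← frob_apply, map_sub, map_neg, iX, ← aeval_algHom_apply, frob_apply, frob_apply,
    aeval_comp, map_pow, aeval_X]

/-- `brk` is fixed by the involution, so it is a polynomial in `x`. -/
lemma exists_R (hΔ : W.Δ ≠ 0) : ∃ R : k[X], CoordinateRing.mk W (C R) = brk W := by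
  obtain ⟨p, s, hps⟩ := CoordinateRing.exists_smul_basis_eq (brk W)
  have h := congrArg (algebraMap W.CoordinateRing (FF' W)) hps
  rw [algebraMap_mk, algebraMap_brk] at h
  have h' := congrArg (invol W) h
  simp only [map_add, map_mul, map_pow, map_ofNat, invol_iX, invol_yg, conj_pow] at h'
  have hs : iX W s * (2 * yg W + iX W (lin W)) = 0 := by linear_combination h - h'
  have hs0 : s = 0 := by
    by_contra hne
    exact (mul_ne_zero (aeval_ne_zero W hne) (ff_two_y_ne_zero hΔ)) hs
  refine ⟨p, ?_⟩
  rw [← hps, hs0, zero_smul, add_zero, CoordinateRing.smul, mul_one]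

/-- The polynomial in `x` equal to `y^q(2y + a₁x + a₃) + (a₁x^q + a₃)y` on the curve. -/
noncomputable def polR (hΔ : W.Δ ≠ 0) : k[X] := (exists_R hΔ).choose

/-- The defining property of `polR` in the function field. -/
lemma iX_polR (hΔ : W.Δ ≠ 0) : iX W (polR hΔ) =
    yg W ^ Fintype.card k * (2 * yg W + iX W (lin W)) +
      iX W ((lin W).comp (Polynomial.X ^ Fintype.card k)) * yg W := by
  rw [iX_eq, polR, (exists_R hΔ).choose_spec, algebraMap_brk]

/-- The defining property of `polR` at any solution. -/
lemma aeval_polR (hΔ : W.Δ ≠ 0) {u v : S} (h : Sol W u v) :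
    aeval u (polR hΔ) = v ^ Fintype.card k * (2 * v + aeval u (lin W)) +
      aeval (u ^ Fintype.card k) (lin W) * v := by
  rw [← spec_C h, polR, (exists_R hΔ).choose_spec, brk]
  simp only [map_add, map_mul, map_pow, map_ofNat, spec_C, spec_Y, aeval_comp, aeval_X]

omit [Fintype k] [DecidableEq (FF' W)] in
/-- The equation of the curve at the generic point. -/
lemma gen_equation : yg W ^ 2 + iX W (lin W) * yg W = iX W (cub W) := by
  have he := equation_gen W
  rw [equation_iff'] at he
  simp at he
  simp [iX, lin, cub]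
  linear_combination he

/-- The auxiliary polynomial has degree at most twice the cardinality of the field. -/
lemma natDegree_polR (hΔ : W.Δ ≠ 0) : (polR hΔ).natDegree ≤ 2 * Fintype.card k := by
  set q := Fintype.card k
  have hq : 2 ≤ q := Fintype.one_lt_card
  set A := lin W
  set B := (lin W).comp (Polynomial.X ^ q)
  set F := cub W
  have key : (polR hΔ + A * B) * polR hΔ =
      F.comp (Polynomial.X ^ q) * (4 * F + A ^ 2) + B ^ 2 * F := by
    apply iX_injective W
    have he := gen_equation (W := W)
    have hF : yg W ^ q * (yg W ^ q + iX W B) = iX W (F.comp (Polynomial.X ^ q)) := by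
      have h2 : (yg W ^ 2 + iX W A * yg W) ^ q = iX W F ^ q := by rw [he]
      rw [← frob_apply, ← frob_apply, map_add, map_mul, iX, ← aeval_algHom_apply,
        ← aeval_algHom_apply, frob_apply, frob_apply, frob_apply] at h2
      simp only [B, iX, aeval_comp, map_pow, aeval_X]
      linear_combination h2
    simp only [map_add, map_mul, map_pow, map_ofNat, iX_polR, ← hF]
    linear_combination (4 * yg W ^ q * (yg W ^ q + iX W B) + iX W B ^ 2) * he
  have hA : A.natDegree ≤ 1 := by simp only [A, lin]; compute_degree
  have hB : B.natDegree ≤ q := by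
    refine natDegree_comp_le.trans ?_
    rw [natDegree_X_pow]
    exact (Nat.mul_le_mul_right _ hA).trans (by simp)
  have hF : F.natDegree ≤ 3 := by simp only [F, cub]; compute_degree
  have hrhs : (F.comp (Polynomial.X ^ q) * (4 * F + A ^ 2) + B ^ 2 * F).natDegree ≤ 3 * q + 3 := by
    refine natDegree_add_le_of_degree_le (natDegree_mul_le_of_le (?_ : _ ≤ 3 * q) ?_) ?_
    · refine natDegree_comp_le.trans ?_
      rw [natDegree_X_pow]
      exact Nat.mul_le_mul_right _ hF
    · refine natDegree_add_le_of_degree_le ?_ ?_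
      · exact natDegree_mul_le.trans (by simp; omega)
      · exact natDegree_pow_le.trans (by omega)
    · exact (natDegree_mul_le.trans (Nat.add_le_add natDegree_pow_le hF)).trans (by omega)
  by_contra hr
  push Not at hr
  have hlt : (A * B).natDegree < (polR hΔ).natDegree :=
    lt_of_le_of_lt (natDegree_mul_le_of_le hA hB) (by omega)
  have hR0 : polR hΔ ≠ 0 := fun h => by simp [h] at hr
  have hS : (polR hΔ + A * B).natDegree = (polR hΔ).natDegree :=
    natDegree_add_eq_left_of_natDegree_lt hlt
  have hS0 : polR hΔ + A * B ≠ 0 := fun h => by rw [h, natDegree_zero] at hS; omega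
  rw [← key, natDegree_mul hS0 hR0, hS] at hrhs
  omega

/-- The numerator of `x((φ - 1)P)` over the denominator `(x^q - x)²`. -/
noncomputable def numer (hΔ : W.Δ ≠ 0) : k[X] :=
  (cub W).comp (Polynomial.X ^ Fintype.card k) + cub W +
    lin W * (lin W).comp (Polynomial.X ^ Fintype.card k) + polR hΔ -
    (C W.a₂ + Polynomial.X ^ Fintype.card k + Polynomial.X) *
      (Polynomial.X ^ Fintype.card k - Polynomial.X) ^ 2

/-- The numerator at a solution. -/
lemma aeval_numer (hΔ : W.Δ ≠ 0) {u v : S} (h : Sol W u v) :
    aeval u (numer hΔ) = aeval (u ^ Fintype.card k) (cub W) + aeval u (cub W) +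
      aeval u (lin W) * aeval (u ^ Fintype.card k) (lin W) +
      (v ^ Fintype.card k * (2 * v + aeval u (lin W)) + aeval (u ^ Fintype.card k) (lin W) * v) -
      (algebraMap k S W.a₂ + u ^ Fintype.card k + u) * (u ^ Fintype.card k - u) ^ 2 := by
  simp [numer, aeval_comp, aeval_polR hΔ h]

/-- The numerator has degree `2 #k + 1`. -/
lemma natDegree_numer (hΔ : W.Δ ≠ 0) : (numer hΔ).natDegree = 2 * Fintype.card k + 1 := by
  have hR := natDegree_polR hΔ
  set q := Fintype.card k with hqdef
  have hq : 2 ≤ q := Fintype.one_lt_card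
  set Z : k[X] := Polynomial.X ^ q with hY
  have e : numer hΔ = Polynomial.X ^ (2 * q + 1) + ((Z * Polynomial.X ^ 2 +
      C (2 * W.a₂) * Z * Polynomial.X + C W.a₄ * (Z + Polynomial.X) + C (2 * W.a₆) +
      lin W * (lin W).comp Z) + polR hΔ) := by
    simp only [numer, ← hqdef, ← hY, cub]
    simp [hY, pow_succ, two_mul, pow_add]
    ring
  rw [e]
  rw [natDegree_add_eq_left_of_natDegree_lt]
  · simp
  rw [natDegree_X_pow]
  refine Nat.lt_succ_of_le (natDegree_add_le_of_degree_le ?_ hR)
  have hA : (lin W).natDegree ≤ 1 := by simp only [lin]; compute_degree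
  have hY' : Z.natDegree = q := by simp [hY]
  refine natDegree_add_le_of_degree_le (natDegree_add_le_of_degree_le
    (natDegree_add_le_of_degree_le (natDegree_add_le_of_degree_le ?_ ?_) ?_)
    ((natDegree_C _).le.trans (Nat.zero_le _))) ?_
  · exact natDegree_mul_le.trans (by rw [hY', natDegree_X_pow]; omega)
  · refine natDegree_mul_le.trans ?_
    have := natDegree_C_mul_le (2 * W.a₂) Z
    rw [natDegree_X]; omega
  · refine (natDegree_C_mul_le _ _).trans ((natDegree_add_le _ _).trans ?_)
    rw [natDegree_X, hY']; omega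
  · refine natDegree_mul_le.trans ?_
    have := natDegree_comp_le (p := lin W) (q := Z)
    rw [hY'] at this
    have := Nat.mul_le_mul_right q hA
    omega

/-! ### local behaviour at a rational abscissa -/

variable {K : Type} [Field K] [Algebra k K]

/-- The numerator at a point with rational abscissa. -/
lemma aeval_numer_point (hΔ : W.Δ ≠ 0) (a : k) {b : K} (h : Sol W (algebraMap k K a) b) :
    aeval (algebraMap k K a) (numer hΔ) = (2 * b + aeval (algebraMap k K a) (lin W)) *
      (b ^ Fintype.card k + b + aeval (algebraMap k K a) (lin W)) := by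
  have ha : (algebraMap k K a) ^ Fintype.card k = algebraMap k K a := by
    rw [← map_pow, FiniteField.pow_card]
  rw [aeval_numer hΔ h, ha, sub_self]
  unfold Sol at h
  linear_combination -2 * h

/-- The numerator does not vanish below two rational points. -/
lemma numer_eval_ne_zero (hΔ : W.Δ ≠ 0) {a b : k} (h : Sol W a b)
    (h2 : 2 * b + aeval a (lin W) ≠ 0) : (numer hΔ).eval a ≠ 0 := by
  have := aeval_numer_point (K := k) hΔ a (b := b) (by simpa using h)
  simp only [Algebra.algebraMap_self, RingHom.id_apply, FiniteField.pow_card,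
    coe_aeval_eq_eval] at this
  rw [this]
  rw [coe_aeval_eq_eval] at h2
  refine mul_ne_zero h2 fun h0 => h2 ?_
  linear_combination h0

/-- The numerator vanishes below a single rational point. -/
lemma numer_eval_eq_zero (hΔ : W.Δ ≠ 0) {a b : k} (h : Sol W a b)
    (h2 : 2 * b + aeval a (lin W) = 0) : (numer hΔ).eval a = 0 := by
  have := aeval_numer_point (K := k) hΔ a (b := b) (by simpa using h)
  simp only [Algebra.algebraMap_self, RingHom.id_apply, coe_aeval_eq_eval] at this h2
  rw [this, h2, zero_mul]

/-- Above an abscissa with a single point the numerator has no double root. -/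
lemma not_sq_dvd_numer (hΔ : W.Δ ≠ 0) {a b : k} (h : Sol W a b)
    (h2 : 2 * b + aeval a (lin W) = 0) : ¬ (Polynomial.X - C a) ^ 2 ∣ numer hΔ := by
  intro hdvd
  -- evaluate at the point `(a + t²/d, b + t)` over `k[t]/(t³)`: a double root would give zero there
  let P : k[X] := Polynomial.X ^ 3
  let T := AdjoinRoot P
  set t : T := AdjoinRoot.root P with ht
  have ht3 : t ^ 3 = 0 := by
    rw [ht, ← AdjoinRoot.mk_X, ← map_pow]
    exact AdjoinRoot.mk_self
  simp [lin, Sol, cub] at h h2
  set d : k := 3 * a ^ 2 + 2 * W.a₂ * a + W.a₄ - W.a₁ * b with hd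
  have hd0 : d ≠ 0 := by
    intro h0
    have hns : W.Nonsingular a b := (equation_iff_nonsingular_of_Δ_ne_zero hΔ).mp
      ((equation_iff ..).mpr (by linear_combination h))
    rw [nonsingular_iff'] at hns
    rcases hns.2 with h1 | h1
    · apply h1; linear_combination -h0
    · apply h1; linear_combination h2
  set al : k →+* T := algebraMap k T
  set u : T := al a + al d⁻¹ * t ^ 2 with hu
  set v : T := al b + t with hv
  have hdd : al d * al d⁻¹ = 1 := by rw [← map_mul, mul_inv_cancel₀ hd0, map_one]
  have hd' : al d = 3 * al a ^ 2 + 2 * al W.a₂ * al a + al W.a₄ - al W.a₁ * al b := by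
    simp [hd, map_ofNat]
  have h' : al b ^ 2 + (al W.a₁ * al a + al W.a₃) * al b =
      al a ^ 3 + al W.a₂ * al a ^ 2 + al W.a₄ * al a + al W.a₆ := by
    simpa using congrArg al h
  have h2' : 2 * al b + (al W.a₁ * al a + al W.a₃) = 0 := by
    simpa [map_ofNat] using congrArg al h2
  have hS : Sol W u v := by
    simp only [Sol, lin, cub, map_add, map_mul, map_pow, aeval_X, aeval_C]
    rw [hu, hv]
    linear_combination h' + t * h2' + (-(al d⁻¹ ^ 3 * t ^ 3 + 3 * al a * al d⁻¹ ^ 2 * t) +
      al W.a₁ * al d⁻¹ - al W.a₂ * al d⁻¹ ^ 2 * t) * ht3 - t ^ 2 * hdd + al d⁻¹ * t ^ 2 * hd'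
  have hq : 2 ≤ Fintype.card k := Fintype.one_lt_card
  have fr : ∀ z : T, z ^ Fintype.card k = FiniteField.frobeniusAlgHom k T z := fun z => rfl
  have hu' : u ^ Fintype.card k = al a := by
    rw [fr, hu, map_add, map_mul, AlgHom.commutes, AlgHom.commutes, ← fr, ← pow_mul,
      show 2 * Fintype.card k = 3 + (2 * Fintype.card k - 3) by omega, pow_add, ht3, zero_mul,
      mul_zero, add_zero]
  have hv' : v ^ Fintype.card k = al b + t ^ Fintype.card k := by
    rw [fr, hv, map_add, AlgHom.commutes, ← fr]
  have htt : t ^ Fintype.card k * t = 0 := by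
    rw [← pow_succ, show Fintype.card k + 1 = 3 + (Fintype.card k - 2) by omega, pow_add, ht3,
      zero_mul]
  -- but the numerator takes the value `t²` there
  have hN : aeval u (numer hΔ) = t ^ 2 := by
    rw [aeval_numer hΔ hS, hu', hv']
    simp only [lin, cub, map_add, map_mul, map_pow, aeval_X, aeval_C]
    simp only [show algebraMap k T = al from rfl]
    rw [hu, hv]
    have hT : t ^ Fintype.card k * t ^ 2 = 0 := by rw [pow_two, ← mul_assoc, htt, zero_mul]
    linear_combination (-2 : T) * h' + (t + t ^ Fintype.card k + 2 * al b +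
        (al W.a₁ * al a + al W.a₃) + al W.a₁ * al d⁻¹ * t ^ 2) * h2' +
      t ^ 2 * hdd - al d⁻¹ * t ^ 2 * hd' + 2 * htt + al W.a₁ * al d⁻¹ * hT +
      (3 * al a * al d⁻¹ ^ 2 * t + al d⁻¹ ^ 3 * t ^ 3 + al W.a₂ * al d⁻¹ ^ 2 * t -
        (al W.a₂ + 2 * al a + al d⁻¹ * t ^ 2) * al d⁻¹ ^ 2 * t) * ht3
  obtain ⟨M, hM⟩ := hdvd
  rw [hM, map_mul, map_pow, map_sub, aeval_X, aeval_C] at hN
  have hz : (u - al a) ^ 2 = 0 := by
    rw [hu, add_sub_cancel_left, mul_pow, ← pow_mul,
      show 2 * 2 = 3 + 1 from rfl, pow_add, ht3, zero_mul, mul_zero]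
  rw [hz, zero_mul] at hN
  have : AdjoinRoot.mk P (Polynomial.X ^ 2) = 0 := by rw [map_pow, AdjoinRoot.mk_X]; exact hN.symm
  rw [AdjoinRoot.mk_eq_zero] at this
  have hle := natDegree_le_of_dvd this (pow_ne_zero _ Polynomial.X_ne_zero)
  simp [P] at hle

omit [Field k] [Fintype k] in
/-- An infinitesimal `e` with `e ^ 2 = 0` does not change a product with `e`. -/
lemma aeval_add_mul_of_sq_eq_zero {R T : Type} [CommRing R] [CommRing T] [Algebra R T] (M : R[X])
    (x : T) {e : T} (he : e ^ 2 = 0) : aeval (x + e) M * e = aeval x M * e := by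
  rw [aeval_add_of_sq_eq_zero M x e he, add_mul, mul_assoc, ← sq, he, mul_zero, add_zero]

/-- An element of an extension field fixed by Frobenius lies in the finite field. -/
lemma mem_range_of_pow_card_eq {K : Type} [Field K] [Algebra k K] {b : K}
    (hbq : b ^ Fintype.card k = b) : b ∈ (algebraMap k K).range := by
  have hq := Fintype.one_lt_card (α := k)
  refine Splits.mem_range_of_isRoot (f := Polynomial.X ^ Fintype.card k - Polynomial.X) ?_
    (FiniteField.X_pow_card_sub_X_ne_zero k hq) (by simp [hbq])
  rw [splits_iff_card_roots, FiniteField.roots_X_pow_card_sub_X, Finset.card_val, Finset.card_univ,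
    FiniteField.X_pow_card_sub_X_natDegree_eq k hq]

/-- Over an abscissa without points the numerator has a double root. -/
lemma sq_dvd_numer (hΔ : W.Δ ≠ 0) {a : k} (hno : ∀ b : k, ¬ Sol W a b) :
    (Polynomial.X - C a) ^ 2 ∣ numer hΔ := by
  let K := AlgebraicClosure k
  set al : k →+* K := algebraMap k K
  set A : K := aeval (al a) (lin W) with hA
  set F : K := aeval (al a) (cub W) with hF
  have hdeg : (Polynomial.X ^ 2 + C A * Polynomial.X - C F : K[X]).degree = 2 := by compute_degree!
  obtain ⟨b, hb⟩ := IsAlgClosed.exists_root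
    (Polynomial.X ^ 2 + C A * Polynomial.X - C F : K[X]) (by rw [hdeg]; decide)
  simp [IsRoot] at hb
  have hS : Sol W (al a) b := by simp only [Sol, ← hA, ← hF]; linear_combination hb
  have hbk : b ^ Fintype.card k ≠ b := by
    intro hbq
    have hbr : b ∈ al.range := mem_range_of_pow_card_eq hbq
    obtain ⟨c, rfl⟩ := hbr
    apply hno c
    simp only [Sol, coe_aeval_eq_eval]
    apply al.injective
    have hS' := hS
    simp only [Sol, al, aeval_algebraMap_apply_eq_algebraMap_eval] at hS'
    simp only [map_add, map_mul, map_pow]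
    exact hS'
  -- Frobenius exchanges the two conjugate points above `a`
  have hroot : b ^ Fintype.card k = -b - A := by
    have hbq : (b ^ Fintype.card k) ^ 2 + A * b ^ Fintype.card k = F := by
      have := congrArg (frob k K) hS
      simp only [map_add, map_mul, map_pow, ← aeval_algHom_apply, frob_apply] at this
      rw [← map_pow, FiniteField.pow_card] at this
      exact this
    have : (b ^ Fintype.card k - b) * (b ^ Fintype.card k + b + A) = 0 := by
      unfold Sol at hS
      linear_combination hbq - hS
    linear_combination (mul_eq_zero.mp this).resolve_left (sub_ne_zero.mpr hbk)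
  have hne : 2 * b + A ≠ 0 := fun h0 => hbk (by rw [hroot]; linear_combination -h0)
  -- first order vanishing
  have h0 : aeval (al a) (numer hΔ) = 0 := by
    rw [aeval_numer_point hΔ a hS, hroot, ← hA]
    ring
  have h0' : (numer hΔ).eval a = 0 := by
    apply al.injective
    rw [map_zero, ← aeval_algebraMap_apply_eq_algebraMap_eval]
    exact h0
  obtain ⟨M, hM⟩ := dvd_iff_isRoot.mpr h0'
  rw [hM, pow_two]
  refine mul_dvd_mul_left _ (dvd_iff_isRoot.mpr (al.injective ?_))
  rw [map_zero, ← aeval_algebraMap_apply_eq_algebraMap_eval]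
  -- dual numbers over `K`
  let P : K[X] := Polynomial.X ^ 2
  let T := AdjoinRoot P
  set e : T := AdjoinRoot.root P with he
  have he2 : e ^ 2 = 0 := by
    rw [he, ← AdjoinRoot.mk_X, ← map_pow]
    exact AdjoinRoot.mk_self
  set ι : K →ₐ[k] T := IsScalarTower.toAlgHom k K T
  set η : K := (aeval (al a) (derivative (cub W)) - al W.a₁ * b) / (2 * b + A) with hη
  have hη' : η * (2 * b + A) = aeval (al a) (derivative (cub W)) - al W.a₁ * b :=
    div_mul_cancel₀ _ hne
  simp only [cub, hA, lin, derivative_mul, derivative_C, derivative_X,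
    derivative_X_pow, map_add, map_mul, map_pow, aeval_X, aeval_C, zero_mul, mul_one, zero_add,
      add_zero, Nat.cast_ofNat, map_ofNat] at hη'
  set u : T := ι (al a) + e with hu
  set v : T := ι b + ι η * e with hv
  have hι := congrArg ι hη'
  simp only [map_add, map_sub, map_mul, map_pow, map_ofNat] at hι
  have hSι := congrArg ι hS
  simp only [lin, cub, map_add, map_mul, map_pow, aeval_X, aeval_C] at hSι
  have hal : ∀ c : k, ι (al c) = algebraMap k T c := fun c => ι.commutes c
  have hST : Sol W u v := by
    simp only [Sol, lin, cub, map_add, map_mul, map_pow, aeval_X, aeval_C]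
    rw [hu, hv]
    simp only [← hal]
    linear_combination hSι + e * hι + (ι η ^ 2 + ι (al W.a₁) * ι η - ι (al W.a₂) -
      3 * ι (al a) - e) * he2
  have hq : 2 ≤ Fintype.card k := Fintype.one_lt_card
  have fr : ∀ z : T, z ^ Fintype.card k = FiniteField.frobeniusAlgHom k T z := fun z => rfl
  have heq : e ^ Fintype.card k = 0 := by
    rw [show Fintype.card k = 2 + (Fintype.card k - 2) by omega, pow_add, he2, zero_mul]
  have hu' : u ^ Fintype.card k = ι (al a) := by
    rw [fr, hu, map_add, hal, AlgHom.commutes, ← fr, heq, add_zero]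
  have hv' : v ^ Fintype.card k = -ι b - ι A := by
    rw [fr, hv, map_add, map_mul, ← fr, ← fr, ← fr, heq, mul_zero, add_zero, ← map_pow, hroot]
    simp
  have hN : aeval u (numer hΔ) = 0 := by
    rw [aeval_numer hΔ hST, hu', hv', hA]
    simp only [lin, cub, map_add, map_mul, map_pow, aeval_X, aeval_C]
    rw [hu, hv]
    simp only [← hal]
    linear_combination -2 * hSι - e * hι + (3 * ι (al a) + e + ι (al W.a₂) -
      (ι (al W.a₂) + 2 * ι (al a) + e)) * he2
  rw [hM, map_mul, map_sub, aeval_X, aeval_C, ← hal, hu, add_sub_cancel_left] at hN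
  have hM0 : aeval u M * e = e * ι (aeval (al a) M) := by
    rw [hu, aeval_add_mul_of_sq_eq_zero M _ he2, aeval_algHom_apply, mul_comm]
  rw [mul_comm, hM0] at hN
  have hP : AdjoinRoot.mk P (Polynomial.X * C (aeval (al a) M)) = 0 := by
    rw [map_mul, AdjoinRoot.mk_X, AdjoinRoot.mk_C]
    exact hN
  rw [AdjoinRoot.mk_eq_zero, X_pow_dvd_iff] at hP
  have h1 := hP 1 one_lt_two
  simp only [coeff_X_mul, coeff_C_zero] at h1
  exact h1

/-! ### the degree -/

open scoped Classical in
/-- The number of rational points with abscissa `a`. -/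
noncomputable def fib (W : Affine k) (a : k) : ℕ :=
  (Finset.univ.filter fun b => Sol W a b).card

omit [DecidableEq (FF' W)] in
/-- An abscissa has no point, one ramified point, or two unramified points over it. -/
lemma fib_cases (a : k) :
    (fib W a = 0 ∧ ∀ b, ¬ Sol W a b) ∨
    (fib W a = 1 ∧ ∃ b, Sol W a b ∧ 2 * b + aeval a (lin W) = 0) ∨
    (fib W a = 2 ∧ ∃ b, Sol W a b ∧ 2 * b + aeval a (lin W) ≠ 0) := by
  classical
  by_cases h : ∃ b, Sol W a b
  · obtain ⟨b, hb⟩ := h
    have hmem : ∀ c, Sol W a c ↔ c = b ∨ c = -b - aeval a (lin W) := by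
      intro c
      unfold Sol at hb ⊢
      constructor
      · intro hc
        have : (c - b) * (c + b + aeval a (lin W)) = 0 := by linear_combination hc - hb
        rcases mul_eq_zero.mp this with h | h
        · exact Or.inl (sub_eq_zero.mp h)
        · exact Or.inr (by linear_combination h)
      · rintro (rfl | rfl)
        · exact hb
        · linear_combination hb
    have hset : (Finset.univ.filter fun c => Sol W a c) = {b, -b - aeval a (lin W)} := by
      ext c; simp [hmem]
    by_cases h2 : 2 * b + aeval a (lin W) = 0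
    · refine Or.inr (Or.inl ⟨?_, b, hb, h2⟩)
      rw [fib, hset, show -b - aeval a (lin W) = b by linear_combination -h2]
      simp
    · refine Or.inr (Or.inr ⟨?_, b, hb, h2⟩)
      rw [fib, hset, Finset.card_pair]
      intro h3; apply h2; linear_combination h3
  · push Not at h
    refine Or.inl ⟨?_, h⟩
    rw [fib, Finset.card_eq_zero, Finset.filter_eq_empty_iff]
    exact fun b _ => h b

omit [DecidableEq (FF' W)] in
/-- At most two rational points share an abscissa. -/
lemma fib_le (a : k) : fib W a ≤ 2 := by
  rcases fib_cases (W := W) a with ⟨h, -⟩ | ⟨h, -⟩ | ⟨h, -⟩ <;> omega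

/-- **`deg(φ-1)` counts the rational points.** -/
theorem hz_frob_sub_gen (hΔ : W.Δ ≠ 0) :
    hz (frobOdd (genOdd hΔ) - genOdd hΔ) = (∑ a, fib W a : ℕ) + 1 := by
  classical
  set q := Fintype.card k with hqdef
  have hq : 2 ≤ q := Fintype.one_lt_card
  set D : k[X] := Polynomial.X ^ q - Polynomial.X with hD
  set g : k[X] := ∏ a : k, (Polynomial.X - C a) ^ (2 - fib W a) with hg
  set den : k[X] := ∏ a : k, (Polynomial.X - C a) ^ fib W a with hden
  -- `numer / (x^q - x)²` in lowest terms is `N' / den`
  have hprod : D = ∏ a : k, (Polynomial.X - C a) := by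
    have hm : D.Monic := by
      rw [hD]; exact monic_X_pow_sub (by rw [degree_X]; exact_mod_cast hq)
    have hr := FiniteField.roots_X_pow_card_sub_X k
    rw [← hqdef, ← hD] at hr
    have := prod_multiset_X_sub_C_of_monic_of_roots_card_eq hm (by
      rw [hr, Finset.card_val, Finset.card_univ, hD, FiniteField.X_pow_card_sub_X_natDegree_eq k
        Fintype.one_lt_card])
    rw [hr] at this
    exact this.symm
  have hgd : g * den = D ^ 2 := by
    rw [hg, hden, hprod, ← Finset.prod_mul_distrib, ← Finset.prod_pow]
    refine Finset.prod_congr rfl fun a _ => ?_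
    rw [← pow_add, Nat.sub_add_cancel (fib_le a)]
  -- `g` is the common factor
  have hgN : g ∣ numer hΔ := by
    refine Finset.prod_dvd_of_coprime (fun a _ b _ hab =>
      ((pairwise_coprime_X_sub_C (fun x y h => h)) hab).pow) fun a _ => ?_
    rcases fib_cases (W := W) a with ⟨h, hno⟩ | ⟨h, b, hb, h2⟩ | ⟨h, -⟩ <;> rw [h]
    · exact sq_dvd_numer hΔ hno
    · rw [pow_one]; exact dvd_iff_isRoot.mpr (numer_eval_eq_zero hΔ hb h2)
    · simp
  obtain ⟨N', hN'⟩ := hgN
  have hgm : g.Monic := monic_prod_of_monic _ _ fun a _ => (monic_X_sub_C a).pow _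
  have hdm : den.Monic := monic_prod_of_monic _ _ fun a _ => (monic_X_sub_C a).pow _
  -- no further cancellation
  have hco : IsCoprime N' den := by
    refine IsCoprime.prod_right fun a _ => ?_
    rcases Nat.eq_zero_or_pos (fib W a) with h0 | h0
    · rw [h0, pow_zero]; exact isCoprime_one_right
    refine IsCoprime.pow_right (IsCoprime.symm ?_)
    rw [(irreducible_X_sub_C a).coprime_iff_not_dvd]
    intro hdvd
    rcases fib_cases (W := W) a with ⟨h, -⟩ | ⟨h, b, hb, h2⟩ | ⟨h, b, hb, h2⟩
    · omega
    · apply not_sq_dvd_numer hΔ hb h2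
      rw [pow_two, hN']
      refine mul_dvd_mul ?_ hdvd
      have := Finset.dvd_prod_of_mem (fun a : k => (Polynomial.X - C a) ^ (2 - fib W a))
        (Finset.mem_univ a)
      simpa [h] using this
    · apply numer_eval_ne_zero hΔ hb h2
      rw [hN', eval_mul]
      exact mul_eq_zero_of_right _ (dvd_iff_isRoot.mp hdvd)
  -- the abscissa
  have hx : ∀ (P : (W⁄(FF' W)).Point), P = frobPt W (FF' W) (gen W hΔ) - gen W hΔ →
      Rep P ![N', den] := by
    intro P hP
    refine ⟨prim_of_isCoprime hco, iX W den, fun i => ?_⟩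
    have hD0 : iX W D ≠ 0 := aeval_ne_zero W (by
      rw [hD]; exact FiniteField.X_pow_card_sub_X_ne_zero k Fintype.one_lt_card)
    have hne : xg W ^ q ≠ xg W := fun h => hD0 (by simp [hD, iX, h])
    rw [frobPt, gen, Point.map_some, sub_eq_add_neg, Point.neg_some] at hP
    rw [hP, Point.add_of_X_ne (by simpa [frob_apply] using hne)]
    fin_cases i
    · simp only [Fin.zero_eta, Point.xRep_some, Matrix.cons_val_zero]
      have hN : iX W (numer hΔ) = iX W g * iX W N' := by rw [hN', map_mul]
      have hgd' : iX W g * iX W den = (xg W ^ q - xg W) ^ 2 := by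
        rw [← map_mul, hgd, hD]; simp [iX]
      have hg0 : iX W g ≠ 0 := aeval_ne_zero W hgm.ne_zero
      apply mul_left_cancel₀ hg0
      rw [← hN, ← mul_assoc, hgd']
      rw [addX, slope_of_X_ne (by simpa [frob_apply] using hne)]
      have hd0 : xg W ^ q - xg W ≠ 0 := sub_ne_zero.mpr hne
      have he := gen_equation (W := W)
      simp only [numer, map_add, map_sub, map_mul, map_pow, iX_polR, frob_apply, ← hqdef, negY]
      have hF : yg W ^ q * (yg W ^ q + iX W ((lin W).comp (Polynomial.X ^ q))) =
          iX W ((cub W).comp (Polynomial.X ^ q)) := by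
        have h2 := congrArg (frob k (FF' W)) he
        simp only [map_add, map_mul, map_pow, iX, ← aeval_algHom_apply, frob_apply, ← hqdef] at h2
        simp only [iX, aeval_comp, map_pow, aeval_X]
        linear_combination h2
      rw [← hF, ← he]
      simp [iX, lin]
      field_simp
      ring
    · simp
  have hrep := hx _ rfl
  -- the degree is the larger of `deg N' = deg den + 1` and `deg den = ∑ fib`
  have hh : height (frobPt W (FF' W) (gen W hΔ) - gen W hΔ) = (∑ a, fib W a) + 1 := by
    rw [height_eq hrep]
    have hdd : den.natDegree = ∑ a, fib W a := by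
      rw [hden, natDegree_prod_of_monic _ _ fun a _ => (monic_X_sub_C a).pow _]
      simp
    have hsum : g.natDegree + den.natDegree = 2 * q := by
      rw [← hgm.natDegree_mul hdm, hgd, natDegree_pow, hD,
        FiniteField.X_pow_card_sub_X_natDegree_eq k Fintype.one_lt_card]
    have hN0 : N' ≠ 0 := fun h => by
      have := natDegree_numer hΔ
      rw [hN', h, mul_zero, natDegree_zero] at this
      omega
    have hdN := natDegree_numer hΔ
    rw [hN', hgm.natDegree_mul' hN0, ← hqdef] at hdN
    apply le_antisymm
    · refine Finset.sup_le fun i _ => ?_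
      fin_cases i <;> simp <;> omega
    · refine le_trans ?_ (natDegree_le_tdeg _ 0)
      simp; omega
  simp only [hz, AddSubgroup.coe_sub, frobOdd, genOdd, hh]
  push_cast
  ring

/-- **The trace is `q + 1 - #W(k)`.** For a nonsingular curve over a finite field this computes the
trace of Frobenius by counting points. -/
theorem trFrob_eq (hΔ : W.Δ ≠ 0) :
    trFrob hΔ = (Fintype.card k : ℤ) + 1 - Nat.card W.Point := by
  classical
  rw [trFrob, hz_frob_sub_gen]
  congr 1
  let e : W.Point ≃ Option (Σ a : k, {b : k // Sol W a b}) :=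
    { toFun := fun P => match P with
        | .zero => none
        | .some x y h => some ⟨x, y, by
            have := (equation_iff ..).mp h.1
            simp [Sol, lin, cub]; linear_combination this⟩
      invFun := fun o => match o with
        | none => .zero
        | some ⟨x, y, h⟩ => .some x y ((equation_iff_nonsingular_of_Δ_ne_zero hΔ).mp
            ((equation_iff ..).mpr (by simp [Sol, lin, cub] at h; linear_combination h)))
      left_inv := fun P => by cases P <;> rfl
      right_inv := fun o => by rcases o with _ | ⟨x, y, h⟩ <;> rfl }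
  rw [Nat.card_congr e, Nat.card_eq_fintype_card, Fintype.card_option, Fintype.card_sigma]
  push_cast
  congr 1
  refine Finset.sum_congr rfl fun a _ => ?_
  rw [fib, Fintype.card_subtype]

end

end Fermat.FR
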