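import Mathlib

/-!
# Functions satisfying the parallelogram law are quadratic forms

`Parallelogram.map_lin_three` evaluates one on combinations; `Endo` applies this to degrees.
-/

set_option autoImplicit false

namespace Fermat.FR

variable {G : Type*} [AddCommGroup G]

/-- The parallelogram law for a function to the integers. -/
def Parallelogram (f : G → ℤ) : Prop :=
  ∀ x y, f (x + y) + f (x - y) = 2 * f x + 2 * f y

variable {f : G → ℤ} (hf : Parallelogram f)

/-- The polar form `f (x + y) - f x - f y`. -/
def polar (f : G → ℤ) (x y : G) : ℤ := f (x + y) - f x - f y

include hf

/-- A function with the parallelogram law vanishes at zero. -/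
lemma Parallelogram.map_zero : f 0 = 0 := by
  have := hf 0 0
  rw [add_zero, sub_zero] at this
  omega

/-- A function with the parallelogram law is even. -/
lemma Parallelogram.map_neg (x : G) : f (-x) = f x := by
  have := hf 0 x
  rw [zero_add, zero_sub, hf.map_zero] at this
  omega

/-- The three-term identity that makes the polar form additive. -/
lemma Parallelogram.add_three (x y z : G) :
    f (x + y + z) = f (x + y) + f (x + z) + f (y + z) - f x - f y - f z := by
  have A := hf (x + y) z
  have B := hf x (y - z)
  have C := hf (x + z) y
  have D := hf y z
  rw [show x + (y - z) = x + y - z by abel, show x - (y - z) = x + z - y by abel] at B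
  rw [show x + z + y = x + y + z by abel] at C
  omega

/-- The polar form as a bilinear map. -/
noncomputable def Parallelogram.polarHom : G →+ G →+ ℤ :=
  AddMonoidHom.mk' (fun x => AddMonoidHom.mk' (fun y => polar f x y) fun y z => by
      simp only [polar]
      have := hf.add_three x y z
      rw [← add_assoc]
      omega)
    fun x y => by
      ext z
      simp only [AddMonoidHom.mk'_apply, AddMonoidHom.add_apply, polar]
      have := hf.add_three x y z
      omega

/-- The bilinear map is the polar form. -/
lemma Parallelogram.polarHom_apply (x y : G) : hf.polarHom x y = polar f x y := rfl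

/-- The polar form on the diagonal is twice the function. -/
lemma Parallelogram.polarHom_self (x : G) : hf.polarHom x x = 2 * f x := by
  rw [hf.polarHom_apply, polar]
  have := hf x x
  rw [sub_self, hf.map_zero] at this
  omega

/-- The function is homogeneous of degree two. -/
lemma Parallelogram.map_zsmul (n : ℤ) (x : G) : f (n • x) = n ^ 2 * f x := by
  have h := hf.polarHom_self (n • x)
  simp only [_root_.map_zsmul, AddMonoidHom.smul_apply, smul_eq_mul, hf.polarHom_self] at h
  linarith

/-- The function on a sum, in terms of the polar form. -/
lemma Parallelogram.map_add (x y : G) : f (x + y) = f x + f y + hf.polarHom x y := by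
  rw [hf.polarHom_apply, polar]
  ring

/-- The value on an integral combination of three elements. -/
lemma Parallelogram.map_lin_three (i j l : ℤ) (u v w : G) :
    f (i • u + j • v + l • w) = i ^ 2 * f u + j ^ 2 * f v + l ^ 2 * f w +
      i * j * hf.polarHom u v + i * l * hf.polarHom u w + j * l * hf.polarHom v w := by
  rw [hf.map_add, hf.map_add, hf.map_zsmul, hf.map_zsmul, hf.map_zsmul]
  simp only [_root_.map_add, _root_.map_zsmul, AddMonoidHom.add_apply, AddMonoidHom.smul_apply,
    smul_eq_mul]
  ring

end Fermat.FR
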