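import Fermat.Agent.FR.Height
import Fermat.Agent.FR.Quad

/-!
# Endomorphisms of the function field and the relation satisfied by Frobenius

`height_map` and `hz_multiple`: degrees multiply and `n` has degree `n²`; `Frob` gets the quadratic
relation from these.
-/

set_option autoImplicit false

open WeierstrassCurve WeierstrassCurve.Affine Polynomial
open scoped WeierstrassCurve.Affine

namespace Fermat.FR

variable {k : Type} [Field k] {W : Affine k}

/-- `k`-algebra maps from the function field are determined by the coordinates. -/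
lemma ff_hom_ext {M : Type} [Field M] [Algebra k M] {f g : FF' W →ₐ[k] M}
    (hx : f (xg W) = g (xg W)) (hy : f (yg W) = g (yg W)) : f = g := by
  apply AlgHom.coe_ringHom_injective
  refine IsLocalization.ringHom_ext (nonZeroDivisors W.CoordinateRing) (RingHom.ext fun z => ?_)
  obtain ⟨p, q, rfl⟩ := CoordinateRing.exists_smul_basis_eq z
  change f (algebraMap W.CoordinateRing (FF' W) _) = g (algebraMap W.CoordinateRing (FF' W) _)
  rw [algebraMap_mk, map_add, map_add, map_mul, map_mul, hy, iX, ← aeval_algHom_apply,
    ← aeval_algHom_apply, ← aeval_algHom_apply, ← aeval_algHom_apply, hx]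

variable [DecidableEq (FF' W)]

/-- An endomorphism of the function field acts on projective abscissae entrywise. -/
lemma map_xRep (e : FF' W →ₐ[k] FF' W) (R : (W⁄(FF' W)).Point) (i : Fin 2) :
    (Point.map e R).xRep i = e (R.xRep i) := by
  rcases R with _ | ⟨x, y, h⟩
  · fin_cases i <;> simp [← Point.zero_def]
  · rw [Point.map_some]
    fin_cases i <;> simp

/-- An endomorphism that sends the generic point to an odd point commutes with the involution. -/
lemma ev_comm (e : FF' W →ₐ[k] FF' W) {hΔ : W.Δ ≠ 0}
    (he : Point.map e (gen W hΔ) ∈ oddPts W) : (invol W).comp e = e.comp (invol W) := by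
  rw [mem_oddPts, Point.map_map] at he
  have h2 : Point.map ((invol W).comp e) (gen W hΔ) = Point.map (e.comp (invol W)) (gen W hΔ) := by
    rw [he, ← Point.map_map, invol_gen, map_neg]
  rw [gen, Point.map_some, Point.map_some, Point.some.injEq] at h2
  exact ff_hom_ext h2.1 h2.2

/-- An endomorphism commuting with the involution preserves odd points. -/
lemma map_mem {e : FF' W →ₐ[k] FF' W} (he : (invol W).comp e = e.comp (invol W))
    {R : (W⁄(FF' W)).Point} (hR : R ∈ oddPts W) : Point.map e R ∈ oddPts W := by
  rw [mem_oddPts, Point.map_map, he, ← Point.map_map, mem_oddPts.mp hR, map_neg]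

/-- A homogenised polynomial at a point with nonzero second coordinate. -/
lemma aeval_homogenize {L : Type} [Field L] [Algebra k L] {p : k[X]} {n : ℕ}
    (hn : p.natDegree ≤ n) (g : Fin 2 → L) (hg : g 1 ≠ 0) :
    MvPolynomial.aeval g (p.homogenize n) = Polynomial.aeval (g 0 / g 1) p * g 1 ^ n := by
  have h := eval_homogenize (p := p.map (algebraMap k L)) (n := n) (by simpa using hn) g hg
  rw [homogenize_map, MvPolynomial.eval_map, ← MvPolynomial.aeval_def, eval_map_algebraMap] at h
  exact h

/-- A homogenised polynomial at a point with zero second coordinate. -/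
lemma aeval_homogenize_infty {L : Type} [Field L] [Algebra k L] (p : k[X]) (n : ℕ)
    (g : Fin 2 → L) (hg : g 1 = 0) :
    MvPolynomial.aeval g (p.homogenize n) = algebraMap k L (p.coeff n) * g 0 ^ n := by
  rw [homogenize, map_sum, Finset.sum_eq_single (n, 0)]
  · simp [Finsupp.update_eq_add_single, MvPolynomial.aeval_monomial]
  · rintro ⟨a, b⟩ hab hne
    have hb : b ≠ 0 := by
      rintro rfl
      simp at hab
      exact hne (by rw [hab])
    simp [Finsupp.update_eq_add_single, MvPolynomial.aeval_monomial, Finsupp.prod_add_index',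
      pow_add, hg, hb]
  · intro h; simp at h

/-- The homogenisation of a primitive tuple has no common zero. -/
lemma noZero_homogenize {T : Fin 2 → k[X]} (hT : Prim T) :
    NoZero fun j => (T j).homogenize (tdeg T) := by
  intro M _ _ x hx
  by_cases h1 : x 1 = 0
  · obtain ⟨j, hj⟩ := Function.ne_iff.mp (lead_ne_zero hT)
    refine ⟨j, ?_⟩
    rw [aeval_homogenize_infty _ _ _ h1]
    refine mul_ne_zero ((_root_.map_ne_zero _).mpr hj) (pow_ne_zero _ fun h0 => hx ?_)
    funext i; fin_cases i <;> assumption
  · by_contra hno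
    push Not at hno
    have h : ∀ j, Polynomial.aeval (x 0 / x 1) (T j) = 0 := fun j => by
      have := hno j
      rw [aeval_homogenize (natDegree_le_tdeg T j) x h1] at this
      exact (mul_eq_zero.mp this).resolve_right (pow_ne_zero _ h1)
    have hco : IsCoprime (T 0) (T 1) := isCoprime_of_prime_dvd
      (fun ⟨a, b⟩ => by
        obtain ⟨j, hj⟩ := exists_ne_zero_of_prim hT
        fin_cases j
        · exact hj a
        · exact hj b)
      fun π hπ a b => by
        obtain ⟨j, hj⟩ := hT π hπ
        fin_cases j
        · exact hj a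
        · exact hj b
    obtain ⟨a, b, hab⟩ := hco
    have := congrArg (Polynomial.aeval (x 0 / x 1)) hab
    simp [h] at this

/-- **Degrees multiply under substitution:** an endomorphism multiplies heights by the height of
the image of the generic point. -/
theorem height_map (hΔ : W.Δ ≠ 0) {e : FF' W →ₐ[k] FF' W}
    (he : (invol W).comp e = e.comp (invol W)) {R : (W⁄(FF' W)).Point} (hR : R ∈ oddPts W) :
    height (Point.map e R) = height R * height (Point.map e (gen W hΔ)) := by
  obtain ⟨T, hT⟩ := exists_rep hΔ hR
  obtain ⟨S, hS⟩ := exists_rep hΔ (map_mem he (gen_mem hΔ))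
  rw [height_eq hT, height_eq hS]
  obtain ⟨hT, α, hα⟩ := hT
  obtain ⟨hS, β, hβ⟩ := hS
  have hβ0 := rep_scalar_ne_zero hS hβ
  obtain ⟨hG, hGd⟩ := prim_eval hS (fun j => isHomogeneous_homogenize (T j)) (noZero_homogenize hT)
  have h0 : iX W (S 0) = β * e (xg W) := by rw [hβ, map_xRep]; simp [gen]
  have h1 : iX W (S 1) = β := by rw [hβ, map_xRep]; simp [gen]
  rw [← hGd]
  apply height_eq
  refine ⟨hG, β ^ tdeg T * e α, fun j => ?_⟩
  rw [MvPolynomial.comp_aeval_apply (f := S) (iX W),
    aeval_homogenize (natDegree_le_tdeg T j) _ (by rw [h1]; exact hβ0), h1, h0,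
    mul_div_cancel_left₀ _ hβ0, map_xRep, mul_assoc, ← map_mul e, ← hα, iX,
    ← aeval_algHom_apply]
  ring

/-- An odd point of height zero other than the origin has constant abscissa. -/
lemma exists_eq_algebraMap_of_height_eq_zero (hΔ : W.Δ ≠ 0) {x y : FF' W}
    {h : (W⁄(FF' W)).Nonsingular x y} (hP : Point.some x y h ∈ oddPts W)
    (h0 : height (Point.some x y h) = 0) :
    ∃ c : k, x = algebraMap k (FF' W) c := by
  obtain ⟨T, hT⟩ := exists_rep hΔ hP
  rw [height_eq hT] at h0
  obtain ⟨hT, α, hα⟩ := hT
  have hd : ∀ j, T j = C ((T j).coeff 0) := fun j =>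
    eq_C_of_natDegree_eq_zero (Nat.le_zero.mp (h0 ▸ natDegree_le_tdeg T j))
  have e0 := hα 0
  have e1 := hα 1
  rw [hd 0, iX, aeval_C] at e0
  rw [hd 1, iX, aeval_C] at e1
  simp at e0 e1
  have hα0 := rep_scalar_ne_zero hT hα
  refine ⟨(T 0).coeff 0 / (T 1).coeff 0, ?_⟩
  rw [map_div₀, e0, e1, mul_div_cancel_left₀ _ hα0]

/-- An odd point of positive height is the image of the generic point under an endomorphism of
the function field that commutes with the involution. -/
lemma exists_endo (hΔ : W.Δ ≠ 0) {P : (W⁄(FF' W)).Point} (hP : P ∈ oddPts W)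
    (h0 : height P ≠ 0) :
    ∃ e : FF' W →ₐ[k] FF' W, (invol W).comp e = e.comp (invol W) ∧
      Point.map e (gen W hΔ) = P := by
  rcases P with _ | ⟨x, y, h⟩
  · exact absurd (by rw [← Point.zero_def]; exact height_zero) h0
  · -- an algebraic abscissa would force height zero
    have hx : Transcendental k x := by
      intro halg
      obtain ⟨p, hp0, hp⟩ := halg
      obtain ⟨T, hT⟩ := exists_rep hΔ hP
      rw [height_eq hT] at h0
      obtain ⟨hT, α, hα⟩ := hT
      have hα0 := rep_scalar_ne_zero hT hα
      have hn : p.natDegree ≠ 0 := by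
        intro hn
        rw [eq_C_of_natDegree_eq_zero hn] at hp hp0
        simp at hp hp0
        exact hp0 hp
      let F : Fin 2 → MvPolynomial (Fin 2) k :=
        ![p.homogenize p.natDegree, MvPolynomial.X 1 ^ p.natDegree]
      have hF : ∀ i, (F i).IsHomogeneous p.natDegree := by
        intro i; fin_cases i
        · exact isHomogeneous_homogenize p
        · exact MvPolynomial.isHomogeneous_X_pow _ _
      have hNZ : NoZero F := by
        intro M _ _ z hz
        by_cases h1 : z 1 = 0
        · refine ⟨0, ?_⟩
          change MvPolynomial.aeval z (p.homogenize p.natDegree) ≠ 0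
          rw [aeval_homogenize_infty _ _ _ h1, coeff_natDegree]
          refine mul_ne_zero ((_root_.map_ne_zero _).mpr (leadingCoeff_ne_zero.mpr hp0))
            (pow_ne_zero _ fun h2 => hz ?_)
          funext i; fin_cases i <;> assumption
        · exact ⟨1, by simp [F, h1]⟩
      obtain ⟨hG, hGd⟩ := prim_eval hT hF hNZ
      have hx1 : iX W (T 1) = α := by simp [hα]
      have z0 : MvPolynomial.aeval T (F 0) = 0 := iX_injective W (by
        change iX W (MvPolynomial.aeval T (p.homogenize p.natDegree)) = iX W 0
        rw [map_zero, MvPolynomial.comp_aeval_apply (f := T) (iX W),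
          aeval_homogenize le_rfl _ (by rw [hx1]; exact hα0), hα, hα]
        simp [hα0, hp])
      have hu : IsUnit (T 1) := by
        by_contra hnu
        by_cases hT1 : T 1 = 0
        · exact hα0 (by rw [← hx1, hT1, map_zero])
        obtain ⟨π, hπ, hdvd⟩ := WfDvdMonoid.exists_irreducible_factor hnu hT1
        obtain ⟨i, hi⟩ := hG π hπ.prime
        apply hi
        fin_cases i
        · change π ∣ MvPolynomial.aeval T (F 0)
          rw [z0]; exact dvd_zero π
        · change π ∣ MvPolynomial.aeval T (MvPolynomial.X 1 ^ p.natDegree)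
          rw [map_pow, MvPolynomial.aeval_X]
          exact hdvd.trans (dvd_pow_self _ hn)
      have hz : tdeg (fun i => MvPolynomial.aeval T (F i)) = 0 := Nat.le_zero.mp <|
        Finset.sup_le fun i _ => by
          fin_cases i
          · change natDegree (MvPolynomial.aeval T (F 0)) ≤ 0
            rw [z0]; simp
          · change natDegree (MvPolynomial.aeval T (MvPolynomial.X 1 ^ p.natDegree)) ≤ 0
            simp [natDegree_eq_zero_of_isUnit hu]
      rw [hGd] at hz
      rcases mul_eq_zero.mp hz with hh | hh
      · exact hn hh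
      · exact h0 hh
    refine ⟨ev h.1 hx, ev_comm _ (hΔ := hΔ) ?_, map_gen hΔ h hx⟩
    rw [map_gen hΔ h hx]; exact hP

/-- The height as an integer valued function on odd points. -/
noncomputable def hz (P : oddPts W) : ℤ := height (P : (W⁄(FF' W)).Point)

/-- The height satisfies the parallelogram law. -/
lemma parallelogram_hz (hΔ : W.Δ ≠ 0) : Parallelogram (hz (W := W)) := fun P Q => by
  have := height_add_add_height_sub hΔ P.2 Q.2
  simp only [hz, AddSubgroup.coe_add, AddSubgroup.coe_sub]
  exact_mod_cast this

/-- Multiplicativity of the height, on integers. -/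
lemma hz_map (hΔ : W.Δ ≠ 0) {e : FF' W →ₐ[k] FF' W} (he : (invol W).comp e = e.comp (invol W))
    (P : oddPts W) : hz (⟨Point.map e P.1, map_mem he P.2⟩ : oddPts W) =
      hz P * hz (⟨Point.map e (gen W hΔ), map_mem he (gen_mem hΔ)⟩ : oddPts W) := by
  simp only [hz]
  exact_mod_cast height_map hΔ he P.2

/-- Multiplication by `n` has degree `n ^ 2`. -/
lemma hz_multiple (hΔ : W.Δ ≠ 0) (n : ℤ) : (height (n • gen W hΔ) : ℤ) = n ^ 2 := by
  have := (parallelogram_hz hΔ).map_zsmul n (⟨gen W hΔ, gen_mem hΔ⟩ : oddPts W)
  simpa [hz, height_gen] using this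

end Fermat.FR
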