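import Mathlib

/-!
# Degrees of primitive tuples of polynomials and forms without common zero

`prim_eval` and `prim_sym2`: degrees multiply, which is what the parallelogram law of `Height`
needs.
-/

set_option autoImplicit false

open Polynomial

namespace Fermat.FR

variable {k : Type} [Field k] {σ τ : Type} [Fintype σ] [Fintype τ]

/-- The degree of a tuple of polynomials: the largest degree of an entry. -/
noncomputable def tdeg (T : σ → k[X]) : ℕ := Finset.univ.sup fun j => (T j).natDegree

/-- A tuple of polynomials is primitive if no prime divides all its entries. -/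
def Prim (T : σ → k[X]) : Prop := ∀ π : k[X], Prime π → ∃ j, ¬ π ∣ T j

/-- The forms have no common nontrivial zero in any extension field. -/
def NoZero (F : τ → MvPolynomial σ k) : Prop :=
  ∀ (M : Type) [Field M] [Algebra k M] (x : σ → M), x ≠ 0 → ∃ i, MvPolynomial.aeval x (F i) ≠ 0

/-- Each entry has degree at most the degree of the tuple. -/
lemma natDegree_le_tdeg (T : σ → k[X]) (j : σ) : (T j).natDegree ≤ tdeg T :=
  Finset.le_sup (f := fun j => (T j).natDegree) (Finset.mem_univ j)

omit [Fintype σ] in
/-- A primitive tuple has a nonzero entry. -/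
lemma exists_ne_zero_of_prim {T : σ → k[X]} (hT : Prim T) : ∃ j, T j ≠ 0 := by
  obtain ⟨j, hj⟩ := hT X Polynomial.prime_X
  exact ⟨j, fun h => hj (h ▸ dvd_zero _)⟩

/-- The leading coefficients of a primitive tuple are not all zero. -/
lemma lead_ne_zero {T : σ → k[X]} (hT : Prim T) : (fun j => (T j).coeff (tdeg T)) ≠ 0 := by
  classical
  intro h
  obtain ⟨j₀, hj₀⟩ := exists_ne_zero_of_prim hT
  obtain ⟨j, -, hj⟩ := Finset.exists_mem_eq_sup (Finset.univ : Finset σ) ⟨j₀, Finset.mem_univ _⟩
    (fun j => (T j).natDegree)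
  have hz : (T j).leadingCoeff = 0 := by
    have := congrFun h j
    simp only [tdeg] at this
    rw [hj] at this
    exact this
  rw [leadingCoeff_eq_zero] at hz
  rw [hz, natDegree_zero] at hj
  have h0 : (T j₀).natDegree = 0 := by
    have := natDegree_le_tdeg T j₀
    simp only [tdeg, hj] at this
    omega
  have := congrFun h j₀
  simp only [tdeg, hj] at this
  exact hj₀ (by rw [eq_C_of_natDegree_eq_zero h0, this]; simp)

/-- A product of polynomials with degrees bounded by `d i` has degree at most `∑ d i`, and the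
coefficient there is the product of the top coefficients. -/
lemma coeff_prod_of_le {ι : Type} (s : Finset ι) (f : ι → k[X]) (d : ι → ℕ)
    (h : ∀ i ∈ s, (f i).natDegree ≤ d i) :
    (∏ i ∈ s, f i).natDegree ≤ ∑ i ∈ s, d i ∧
      (∏ i ∈ s, f i).coeff (∑ i ∈ s, d i) = ∏ i ∈ s, (f i).coeff (d i) := by
  classical
  induction s using Finset.induction_on with
  | empty => simp
  | @insert a t hat ih =>
    obtain ⟨h1, h2⟩ := ih fun i hi => h i (Finset.mem_insert_of_mem hi)
    have ha := h a (Finset.mem_insert_self _ _)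
    rw [Finset.prod_insert hat, Finset.sum_insert hat, Finset.prod_insert hat]
    exact ⟨natDegree_mul_le.trans (Nat.add_le_add ha h1),
      by rw [coeff_mul_add_eq_of_natDegree_le ha h1, h2]⟩

/-- A form of degree `d` in polynomials of degree at most `m` has degree at most `d m`, with the
expected leading coefficient. -/
lemma aeval_bound {T : σ → k[X]} {m : ℕ} (hm : ∀ j, (T j).natDegree ≤ m)
    {F : MvPolynomial σ k} {d : ℕ} (hF : F.IsHomogeneous d) :
    (MvPolynomial.aeval T F).natDegree ≤ d * m ∧
      (MvPolynomial.aeval T F).coeff (d * m) = MvPolynomial.eval (fun j => (T j).coeff m) F := by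
  classical
  rw [MvPolynomial.aeval_def, MvPolynomial.eval₂_eq']
  have key : ∀ e ∈ F.support,
      (algebraMap k k[X] (F.coeff e) * ∏ i, T i ^ e i).natDegree ≤ d * m ∧
      (algebraMap k k[X] (F.coeff e) * ∏ i, T i ^ e i).coeff (d * m) =
        F.coeff e * ∏ i, (T i).coeff m ^ e i := by
    intro e he
    have hsum : ∑ i, e i * m = d * m := by
      rw [← Finset.sum_mul]
      congr 1
      have := hF (MvPolynomial.mem_support_iff.mp he)
      rw [← this, Finsupp.weight_apply, Finsupp.sum_fintype _ _ (by simp)]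
      simp
    have hp := coeff_prod_of_le Finset.univ (fun i => T i ^ e i) (fun i => e i * m)
      (fun i _ => natDegree_pow_le.trans (Nat.mul_le_mul le_rfl (hm i)))
    rw [hsum] at hp
    refine ⟨(natDegree_C_mul_le _ _).trans hp.1, ?_⟩
    rw [← C_eq_algebraMap, coeff_C_mul, hp.2]
    congr 1
    exact Finset.prod_congr rfl fun i _ => coeff_pow_of_natDegree_le (hm i)
  refine ⟨natDegree_sum_le_of_forall_le _ _ fun e he => (key e he).1, ?_⟩
  rw [finsetSum_coeff, MvPolynomial.eval_eq']
  exact Finset.sum_congr rfl fun e he => (key e he).2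

/-- **Forms without common zero multiply the degree and keep primitivity.** -/
theorem prim_eval {T : σ → k[X]} (hT : Prim T) {F : τ → MvPolynomial σ k} {d : ℕ}
    (hF : ∀ i, (F i).IsHomogeneous d) (hNZ : NoZero F) :
    Prim (fun i => MvPolynomial.aeval T (F i)) ∧
      tdeg (fun i => MvPolynomial.aeval T (F i)) = d * tdeg T := by
  classical
  constructor
  · intro π hπ
    have : (Ideal.span {π}).IsMaximal :=
      PrincipalIdealRing.isMaximal_of_irreducible hπ.irreducible
    let : Field (k[X] ⧸ Ideal.span {π}) := Ideal.Quotient.field _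
    obtain ⟨j, hj⟩ := hT π hπ
    let q : k[X] →ₐ[k] (k[X] ⧸ Ideal.span {π}) := Ideal.Quotient.mkₐ k _
    have hx : (fun i => q (T i)) ≠ 0 := fun h => hj (by
      have := congrFun h j
      simpa [q, Ideal.Quotient.eq_zero_iff_mem, Ideal.mem_span_singleton] using this)
    obtain ⟨i, hi⟩ := hNZ _ _ hx
    refine ⟨i, fun hdvd => hi ?_⟩
    have h0 : q (MvPolynomial.aeval T (F i)) = 0 :=
      Ideal.Quotient.eq_zero_iff_mem.mpr (Ideal.mem_span_singleton.mpr hdvd)
    exact ((MvPolynomial.comp_aeval_apply (f := T) q (F i)).symm).trans h0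
  · apply le_antisymm
    · exact Finset.sup_le fun i _ => (aeval_bound (natDegree_le_tdeg T) (hF i)).1
    · obtain ⟨i, hi⟩ := hNZ k _ (lead_ne_zero hT)
      refine le_trans ?_ (natDegree_le_tdeg _ i)
      apply le_natDegree_of_ne_zero
      rw [(aeval_bound (natDegree_le_tdeg T) (hF i)).2]
      rw [MvPolynomial.aeval_eq_eval] at hi
      exact hi

/-- The coefficients of the product of two pairs, as binary forms: the symmetric product. -/
noncomputable def sym2 (P Q : Fin 2 → k[X]) : Fin 3 → k[X] :=
  ![P 0 * Q 0, P 0 * Q 1 + P 1 * Q 0, P 1 * Q 1]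

/-- The symmetric square of two primitive pairs is primitive, and degrees add. -/
theorem prim_sym2 {P Q : Fin 2 → k[X]} (hP : Prim P) (hQ : Prim Q) :
    Prim (sym2 P Q) ∧ tdeg (sym2 P Q) = tdeg P + tdeg Q := by
  classical
  refine ⟨?_, le_antisymm ?_ ?_⟩
  -- a common prime factor would divide one of the pairs
  · intro π hπ
    by_contra hno
    push Not at hno
    have h0 : π ∣ P 0 * Q 0 := hno 0
    have h1 : π ∣ P 0 * Q 1 + P 1 * Q 0 := hno 1
    have h2 : π ∣ P 1 * Q 1 := hno 2
    obtain ⟨jp, hjp⟩ := hP π hπ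
    obtain ⟨jq, hjq⟩ := hQ π hπ
    rcases hπ.dvd_or_dvd h0 with a | c
    · have b : ¬ π ∣ P 1 := fun b => hjp (by fin_cases jp <;> assumption)
      have c : π ∣ Q 0 := ((hπ.dvd_or_dvd ((dvd_add_right (a.mul_right _)).mp h1)).resolve_left b)
      have dd : π ∣ Q 1 := (hπ.dvd_or_dvd h2).resolve_left b
      exact hjq (by fin_cases jq <;> assumption)
    · have dd : ¬ π ∣ Q 1 := fun dd => hjq (by fin_cases jq <;> assumption)
      have a : π ∣ P 0 := ((hπ.dvd_or_dvd ((dvd_add_left (c.mul_left _)).mp h1)).resolve_right dd)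
      have b : π ∣ P 1 := (hπ.dvd_or_dvd h2).resolve_right dd
      exact hjp (by fin_cases jp <;> assumption)
  -- the degree is at most the sum
  · refine Finset.sup_le fun i _ => ?_
    have e : ∀ a b, (P a * Q b).natDegree ≤ tdeg P + tdeg Q := fun a b =>
      natDegree_mul_le.trans (Nat.add_le_add (natDegree_le_tdeg P a) (natDegree_le_tdeg Q b))
    fin_cases i <;> simp only [sym2]
    · exact e 0 0
    · exact natDegree_add_le_of_degree_le (e 0 1) (e 1 0)
    · exact e 1 1
  -- and at least: the leading pairs have a nonzero symmetric square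
  · have hp := lead_ne_zero hP
    have hq := lead_ne_zero hQ
    have e : ∀ a b, (P a * Q b).coeff (tdeg P + tdeg Q) =
        (P a).coeff (tdeg P) * (Q b).coeff (tdeg Q) := fun a b =>
      coeff_mul_add_eq_of_natDegree_le (natDegree_le_tdeg P a) (natDegree_le_tdeg Q b)
    by_contra hlt
    push Not at hlt
    have z : ∀ i, (sym2 P Q i).coeff (tdeg P + tdeg Q) = 0 := fun i =>
      coeff_eq_zero_of_natDegree_lt (lt_of_le_of_lt (natDegree_le_tdeg _ i) hlt)
    have z0 := z 0
    have z1 := z 1
    have z2 := z 2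
    simp only [sym2, Matrix.cons_val_zero, Matrix.cons_val_one, Matrix.cons_val,
      coeff_add, e] at z0 z1 z2
    rcases mul_eq_zero.mp z0 with a | c
    · rw [a, zero_mul, zero_add] at z1
      have b : (P 1).coeff (tdeg P) ≠ 0 :=
        fun b => hp (funext fun j => by fin_cases j <;> assumption)
      exact hq (funext fun j => by
        fin_cases j
        · exact (mul_eq_zero.mp z1).resolve_left b
        · exact (mul_eq_zero.mp z2).resolve_left b)
    · rw [c, mul_zero, add_zero] at z1
      have dd : (Q 1).coeff (tdeg Q) ≠ 0 :=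
        fun dd => hq (funext fun j => by fin_cases j <;> assumption)
      exact hp (funext fun j => by
        fin_cases j
        · exact (mul_eq_zero.mp z1).resolve_right dd
        · exact (mul_eq_zero.mp z2).resolve_right dd)

/-- Primitive tuples that are proportional have the same degree: they differ by a nonzero
constant factor. -/
theorem tdeg_eq_of_proportional {L : Type*} [Field L] {f : k[X] →+* L} (hf : Function.Injective f)
    {S T : σ → k[X]} (hS : Prim S) (hT : Prim T)
    (h : ∀ i j, f (S i) * f (T j) = f (S j) * f (T i)) : tdeg S = tdeg T := by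
  classical
  have h' : ∀ i j, S i * T j = S j * T i := fun i j => hf (by simp only [map_mul]; exact h i j)
  -- reduce `S j₀` and `T j₀` by their gcd
  obtain ⟨j₀, hj₀⟩ := exists_ne_zero_of_prim hT
  obtain ⟨g, p, q, hg, hpq, hp, hq⟩ :
      ∃ g p q : k[X], g ≠ 0 ∧ IsCoprime p q ∧ S j₀ = g * p ∧ T j₀ = g * q := by
    obtain ⟨p, q, g, hpq, hp, hq⟩ :=
      UniqueFactorizationMonoid.exists_reduced_factors' (S j₀) (T j₀) hj₀
    exact ⟨g, p, q, fun h0 => hj₀ (by rw [← hq, h0, zero_mul]), hpq.isCoprime, hp.symm, hq.symm⟩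
  -- then `S i * q = p * T i` throughout
  have hrel : ∀ i, S i * q = p * T i := fun i => mul_left_cancel₀ hg (by
    have := h' i j₀
    rw [hp, hq] at this
    linear_combination this)
  have hq0 : q ≠ 0 := fun h0 => hj₀ (by rw [hq, h0, mul_zero])
  -- primitivity makes `q` and `p` units
  have hqu : IsUnit q := by
    by_contra hnu
    obtain ⟨π, hπ, hπq⟩ := WfDvdMonoid.exists_irreducible_factor hnu hq0
    have hπ' : Prime π := hπ.prime
    obtain ⟨j, hj⟩ := hT π hπ'
    apply hj
    have : π ∣ p * T j := hrel j ▸ hπq.mul_left (S j)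
    exact (hπ'.dvd_or_dvd this).resolve_left fun hp' =>
      hπ.not_isUnit (hpq.isUnit_of_dvd' hp' hπq)
  have hp0 : p ≠ 0 := by
    intro h0
    obtain ⟨j, hj⟩ := exists_ne_zero_of_prim hS
    have := hrel j
    rw [h0, zero_mul] at this
    exact hj ((mul_eq_zero.mp this).resolve_right hq0)
  have hpu : IsUnit p := by
    by_contra hnu
    obtain ⟨π, hπ, hπp⟩ := WfDvdMonoid.exists_irreducible_factor hnu hp0
    have hπ' : Prime π := hπ.prime
    obtain ⟨j, hj⟩ := hS π hπ'
    apply hj
    have : π ∣ S j * q := (hrel j).symm ▸ hπp.mul_right (T j)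
    exact (hπ'.dvd_or_dvd this).resolve_right fun hq' =>
      hπ.not_isUnit (hpq.isUnit_of_dvd' hπp hq')
  -- hence constants
  obtain ⟨a, -, ha⟩ := Polynomial.isUnit_iff.mp hqu
  obtain ⟨b, -, hb⟩ := Polynomial.isUnit_iff.mp hpu
  have ha0 : a ≠ 0 := fun h0 => hq0 (by rw [← ha, h0, map_zero])
  have hb0 : b ≠ 0 := fun h0 => hp0 (by rw [← hb, h0, map_zero])
  unfold tdeg
  refine Finset.sup_congr rfl fun i _ => ?_
  have := hrel i
  rw [← ha, ← hb] at this
  rw [← natDegree_mul_C ha0 (p := S i), this, natDegree_C_mul hb0]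

end Fermat.FR
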