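import Fermat.Agent.FR.Endo

/-!
# The quadratic relation satisfied by Frobenius on the points of a curve over a finite field

`frob_relation`: `φ² - a φ + q = 0`, where `q + 1 - a` is the degree of `φ - 1`; `Count` identifies
it with the number of points.
-/

set_option autoImplicit false

open WeierstrassCurve WeierstrassCurve.Affine Polynomial
open scoped WeierstrassCurve.Affine

namespace Fermat.FR

variable {k : Type} [Field k] [Fintype k]

variable (k) in
/-- Frobenius of a `k`-algebra which is a field. -/
noncomputable abbrev frob (M : Type) [Field M] [Algebra k M] : M →ₐ[k] M :=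
  FiniteField.frobeniusAlgHom k M

/-- The Frobenius map raises to the power `#k`. -/
lemma frob_apply {M : Type} [Field M] [Algebra k M] (x : M) :
    frob k M x = x ^ Fintype.card k := rfl

/-- Frobenius commutes with every `k`-algebra map. -/
lemma comp_frob {M N : Type} [Field M] [Algebra k M] [Field N] [Algebra k N] (e : M →ₐ[k] N) :
    e.comp (frob k M) = (frob k N).comp e := AlgHom.ext fun x => by simp [map_pow]

variable {W : Affine k} {M N : Type} [Field M] [Algebra k M] [DecidableEq M]
  [Field N] [Algebra k N] [DecidableEq N]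

variable (W) in
/-- Frobenius on points. -/
noncomputable def frobPt (M : Type) [Field M] [Algebra k M] [DecidableEq M] :
    (W⁄M).Point →+ (W⁄M).Point :=
  Point.map (frob k M)

/-- Frobenius on points commutes with base change. -/
lemma map_frobPt (e : M →ₐ[k] N) (P : (W⁄M).Point) :
    Point.map e (frobPt W M P) = frobPt W N (Point.map e P) := by
  simp only [frobPt, Point.map_map, comp_frob]

variable (W) in
/-- The endomorphism `φ² - aφ + q` of the points over `M`, for `φ` the Frobenius and `q = #k`. -/
noncomputable def relMap (a : ℤ) (M : Type) [Field M] [Algebra k M] [DecidableEq M] :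
    (W⁄M).Point →+ (W⁄M).Point :=
  (frobPt W M).comp (frobPt W M) - a • frobPt W M + (Fintype.card k : ℤ) • AddMonoidHom.id _

/-- `relMap` evaluated at a point. -/
lemma relMap_apply (a : ℤ) (P : (W⁄M).Point) :
    relMap W a M P = frobPt W M (frobPt W M P) - a • frobPt W M P + (Fintype.card k : ℤ) • P :=
  rfl

/-- `relMap` commutes with base change. -/
lemma map_relMap (a : ℤ) (e : M →ₐ[k] N) (P : (W⁄M).Point) :
    Point.map e (relMap W a M P) = relMap W a N (Point.map e P) := by
  simp only [relMap_apply, map_add, map_sub, map_zsmul, map_frobPt]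

variable [DecidableEq (FF' W)] (hΔ : W.Δ ≠ 0)

/-- Frobenius commutes with the involution of the function field. -/
lemma invol_frob :
    (invol W).comp (frob k (FF' W)) = (frob k (FF' W)).comp (invol W) := comp_frob _

/-- Frobenius on odd points. -/
noncomputable def frobOdd (P : oddPts W) : oddPts W :=
  ⟨frobPt W (FF' W) P.1, map_mem invol_frob P.2⟩

/-- Frobenius is additive on odd points. -/
lemma frobOdd_add (P Q : oddPts W) : frobOdd (P + Q) = frobOdd P + frobOdd Q :=
  Subtype.ext (map_add (frobPt W (FF' W)) P.1 Q.1)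

/-- The generic point as an odd point. -/
noncomputable def genOdd : oddPts W := ⟨gen W hΔ, gen_mem hΔ⟩

omit [Fintype k] in
/-- The identity has degree one. -/
lemma hz_genOdd : hz (genOdd hΔ) = 1 := by simp [hz, genOdd, height_gen]

/-- Frobenius has degree `q`. -/
lemma hz_frob_gen : hz (frobOdd (genOdd hΔ)) = Fintype.card k := by
  have hR : Rep (frobPt W (FF' W) (gen W hΔ)) ![Polynomial.X ^ Fintype.card k, 1] := by
    refine ⟨prim_of_isCoprime isCoprime_one_right, 1, fun i => ?_⟩
    rw [frobPt, map_xRep]
    fin_cases i <;> simp [gen, iX]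
  have : height (frobPt W (FF' W) (gen W hΔ)) = Fintype.card k := by
    rw [height_eq hR]
    apply le_antisymm
    · exact Finset.sup_le fun i _ => by fin_cases i <;> simp
    · exact le_trans (by simp) (natDegree_le_tdeg _ 0)
  simp only [hz, frobOdd, genOdd, this]

include hΔ in
/-- Frobenius multiplies heights by `q`. -/
lemma hz_frobOdd (P : oddPts W) : hz (frobOdd P) = Fintype.card k * hz P := by
  have := hz_map hΔ invol_frob P
  rw [← hz_frob_gen hΔ, mul_comm]
  exact this

/-- `φ - 1` multiplies heights by its degree. -/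
lemma hz_frob_sub (P : oddPts W) :
    hz (frobOdd P - P) = hz (frobOdd (genOdd hΔ) - genOdd hΔ) * hz P := by
  have hpar := parallelogram_hz (W := W) hΔ
  -- height zero: the abscissa is constant, so `φ P = ± P`; else pull back along `P`
  by_cases h0 : height P.1 = 0
  · have hP0 : hz P = 0 := by simp [hz, h0]
    rw [hP0, mul_zero]
    obtain ⟨P, hP⟩ := P
    rcases P with _ | ⟨x, y, h⟩
    · have : (⟨(Point.zero : (W⁄(FF' W)).Point), hP⟩ : oddPts W) = 0 := rfl
      rw [this, show frobOdd (0 : oddPts W) = 0 from Subtype.ext (map_zero (frobPt W (FF' W))),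
        sub_zero, hpar.map_zero]
    · obtain ⟨c, hc⟩ := exists_eq_algebraMap_of_height_eq_zero hΔ hP h0
      have hx : (frobPt W (FF' W) (Point.some x y h)).xRep = (Point.some x y h).xRep := by
        funext i
        rw [frobPt, map_xRep]
        fin_cases i
        · simp only [Fin.zero_eta, Point.xRep_some, Matrix.cons_val_zero]
          rw [hc, AlgHom.commutes]
        · simp
      rcases Point.eq_or_eq_neg_of_xRep_eq_xRep hx with h1 | h1
      · rw [show frobOdd (⟨_, hP⟩ : oddPts W) = ⟨_, hP⟩ from Subtype.ext h1, sub_self,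
          hpar.map_zero]
      · rw [show frobOdd (⟨_, hP⟩ : oddPts W) = -⟨_, hP⟩ from Subtype.ext h1,
          show -(⟨_, hP⟩ : oddPts W) - ⟨_, hP⟩ = (-2 : ℤ) • ⟨_, hP⟩ by abel, hpar.map_zsmul, hP0,
          mul_zero]
  · obtain ⟨e, he, hg⟩ := exists_endo hΔ P.2 h0
    have h1 := hz_map hΔ he (frobOdd (genOdd hΔ) - genOdd hΔ)
    have e1 : (⟨Point.map e (frobOdd (genOdd hΔ) - genOdd hΔ).1, map_mem he
        (frobOdd (genOdd hΔ) - genOdd hΔ).2⟩ : oddPts W) = frobOdd P - P := by
      refine Subtype.ext ?_
      simp only [AddSubgroup.coe_sub, frobOdd, genOdd, map_sub, map_frobPt, hg]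
    have e2 : (⟨Point.map e (gen W hΔ), map_mem he (gen_mem hΔ)⟩ : oddPts W) = P := Subtype.ext hg
    rw [e1, e2] at h1
    exact h1

/-- The trace of Frobenius, defined as `q + 1 - deg(φ - 1)`. -/
noncomputable def trFrob : ℤ :=
  (Fintype.card k : ℤ) + 1 - hz (frobOdd (genOdd hΔ) - genOdd hΔ)

/-- `φ² - aφ + q` kills the generic point. -/
theorem relMap_gen : relMap W (trFrob hΔ) (FF' W) (gen W hΔ) = 0 := by
  have hpar := parallelogram_hz (W := W) hΔ
  set g := genOdd hΔ with hg
  set v := frobOdd g with hv
  set u := frobOdd v with hu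
  set q : ℤ := ((Fintype.card k : ℕ) : ℤ) with hq
  set a := trFrob hΔ with ha
  have fg : hz g = 1 := hz_genOdd hΔ
  have fv : hz v = q := hz_frob_gen hΔ
  have fu : hz u = q * q := by rw [hu, hz_frobOdd hΔ, fv]
  have ea : hz (v - g) = q + 1 - a := by rw [ha, trFrob, ← hg, ← hv, ← hq]; ring
  -- the polar form on `g, φ g, φ² g`
  have Bvg : hpar.polarHom v g = a := by
    have := hpar.map_add v (-g)
    rw [← sub_eq_add_neg, map_neg, hpar.map_neg, fg, fv, ea] at this
    linarith
  have fp : hz (v + g) = q + 1 + a := by rw [hpar.map_add, fg, fv, Bvg]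
  have fvu : hz (u + v) = q * (q + 1 + a) := by rw [hu, hv, ← frobOdd_add, hz_frobOdd hΔ, ← hv, fp]
  have Buv : hpar.polarHom u v = q * a := by
    have := hpar.map_add u v
    rw [fu, fv, fvu] at this
    linarith
  have fm : hz (u - g) = (q + 1 - a) * (q + 1 + a) := by
    have h1 := hz_frob_sub hΔ (v + g)
    have h2 : frobOdd (v + g) - (v + g) = u - g := by rw [frobOdd_add, ← hu, ← hv]; abel
    rw [h2, ← hg, ← hv, ea, fp] at h1
    exact h1
  have Bug : hpar.polarHom u g = a ^ 2 - 2 * q := by
    have := hpar.map_add u (-g)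
    rw [← sub_eq_add_neg, map_neg, hpar.map_neg, fg, fu, fm] at this
    linarith
  set Z : oddPts W := (1 : ℤ) • u + (-a) • v + q • g with hZ
  -- `Z = φ² g - a φ g + q g` has height zero
  have fZ : hz Z = 0 := by
    rw [hZ, hpar.map_lin_three, fu, fv, fg, Buv, Bvg, Bug]
    ring
  have eZ : (Z : (W⁄(FF' W)).Point) = relMap W a (FF' W) (gen W hΔ) := by
    rw [relMap_apply, hZ, hu, hv, hg]
    simp only [AddSubgroup.coe_add, AddSubgroup.coe_neg, AddSubgroup.coe_zsmul, frobOdd, genOdd,
      one_zsmul, neg_zsmul]
    rw [sub_eq_add_neg, hq]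
  rw [← eZ]
  obtain ⟨Z', hZ'⟩ := Z
  change Z' = 0
  have h0 : height Z' = 0 := by simpa [hz] using fZ
  rcases Z' with _ | ⟨x, y, h⟩
  · rfl
  · exfalso
    obtain ⟨c, hc⟩ := exists_eq_algebraMap_of_height_eq_zero hΔ hZ' h0
    set P : (W⁄(FF' W)).Point := Point.some x y h with hPdef
    -- a constant point has `n • P = ± P` for all `n ≠ 0`, impossible for `n = 2` and `n = 3`
    have key : ∀ n : ℤ, n ≠ 0 → n • P = P ∨ n • P = -P := by
      intro n hn
      have hne : height (n • gen W hΔ) ≠ 0 := by
        intro h1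
        have := hz_multiple hΔ n
        rw [h1] at this
        exact hn (pow_eq_zero_iff (two_ne_zero) |>.mp this.symm)
      obtain ⟨e, -, he⟩ := exists_endo hΔ (zsmul_mem (gen_mem hΔ) n) hne
      have h1 : Point.map e P = n • P := by
        have e1 : P = relMap W a (FF' W) (gen W hΔ) := eZ
        conv_lhs => rw [e1]
        rw [map_relMap, he, map_zsmul, ← e1]
      rw [← h1]
      refine Point.eq_or_eq_neg_of_xRep_eq_xRep (funext fun i => ?_)
      rw [map_xRep, hPdef]
      fin_cases i
      · simp only [Fin.zero_eta, Point.xRep_some, Matrix.cons_val_zero]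
        rw [hc, AlgHom.commutes]
      · simp
    have hP : P ≠ 0 := Point.some_ne_zero h
    rcases key 2 two_ne_zero with h2 | h2
    · exact hP (by rw [two_zsmul] at h2; simp at h2)
    · have h3 : (3 : ℤ) • P = 0 := by
        rw [show (3 : ℤ) = 2 + 1 from rfl, add_zsmul, h2, one_zsmul, neg_add_cancel]
      rcases key 3 three_ne_zero with h4 | h4 <;> rw [h3] at h4
      · exact hP h4.symm
      · exact hP (neg_eq_zero.mp h4.symm)

include hΔ in
/-- `φ² - aφ + q` kills every point with transcendental abscissa. -/
theorem relMap_of_transcendental {x y : M} (h : (W⁄M).Nonsingular x y) (hx : Transcendental k x) :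
    relMap W (trFrob hΔ) M (Point.some x y h) = 0 := by
  have := congrArg (Point.map (ev h.1 hx)) (relMap_gen (W := W) hΔ)
  rwa [map_relMap, map_gen, map_zero] at this

omit [DecidableEq N] in
include hΔ in
/-- `φ² - aφ + q` kills the points over `M`, given an extension of `M` with a point whose
abscissa is transcendental over `M`. -/
theorem relMap_eq_zero_aux [Algebra M N] [IsScalarTower k M N] {x₀ y₀ : N}
    (h₀ : (W⁄N).Nonsingular x₀ y₀) (htr : Transcendental M x₀) (T : (W⁄M).Point) :
    relMap W (trFrob hΔ) M T = 0 := by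
  classical
  let ι : M →ₐ[k] N := IsScalarTower.toAlgHom k M N
  apply Point.map_injective (W' := W) (f := ι)
  rw [map_relMap, map_zero]
  set g : (W⁄N).Point := Point.some x₀ y₀ h₀ with hg
  set T' : (W⁄N).Point := Point.map ι T with hT'
  have hgk : relMap W (trFrob hΔ) N g = 0 :=
    relMap_of_transcendental hΔ h₀ fun halg => htr (halg.tower_top M)
  -- points over the algebraic closure of `M` in `N`
  let A := algebraicClosure M N
  let j : A →ₐ[k] N := A.val.restrictScalars k
  have hgA : g ∉ Set.range (Point.map (W' := W) j) := by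
    rintro ⟨Q, hQ⟩
    rcases Q with _ | ⟨u, v, huv⟩
    · rw [← Point.zero_def, map_zero, hg] at hQ
      exact Point.some_ne_zero _ hQ.symm
    · rw [Point.map_some, hg, Point.some.injEq] at hQ
      apply htr
      rw [← hQ.1]
      exact mem_algebraicClosure_iff.mp u.2
  have hTA : T' ∈ Set.range (Point.map (W' := W) j) :=
    ⟨Point.map (IsScalarTower.toAlgHom k M A) T, by rw [Point.map_map, hT']; rfl⟩
  -- `g + T'` has transcendental abscissa, and the relation is additive
  have hsum : relMap W (trFrob hΔ) N (g + T') = 0 := by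
    have hnA : g + T' ∉ Set.range (Point.map (W' := W) j) := fun ⟨Q, hQ⟩ => by
      obtain ⟨Q', hQ'⟩ := hTA
      exact hgA ⟨Q - Q', by rw [map_sub, hQ, hQ', add_sub_cancel_right]⟩
    rcases hS : g + T' with _ | ⟨x, y, h⟩
    · exact map_zero _
    · refine relMap_of_transcendental hΔ h fun halg => hnA ?_
      rw [hS]
      have hxA : x ∈ A := mem_algebraicClosure_iff.mpr (halg.tower_top M)
      let xA : A := ⟨x, hxA⟩
      have hyA : IsIntegral A y := by
        have he := h.1
        rw [equation_iff'] at he
        refine ⟨Polynomial.X ^ 2 + C (algebraMap k A W.a₁ * xA + algebraMap k A W.a₃) *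
          Polynomial.X - C (xA ^ 3 + algebraMap k A W.a₂ * xA ^ 2 + algebraMap k A W.a₄ * xA +
            algebraMap k A W.a₆), by monicity!, ?_⟩
        simp [eval₂_pow] at he ⊢
        simp [xA, show ∀ c : k, ((algebraMap k A c : A) : N) = algebraMap k N c from
          fun c => j.commutes c] at he ⊢
        linear_combination he
      have hy : y ∈ A := mem_algebraicClosure_iff.mpr
        (haveI : Algebra.IsAlgebraic M A := algebraicClosure.isAlgebraic M N
         haveI : Algebra.IsIntegral M A := Algebra.IsAlgebraic.isIntegral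
         (isIntegral_trans (R := M) (A := A) y hyA).isAlgebraic)
      have hn : (W⁄A).Nonsingular xA ⟨y, hy⟩ :=
        (WeierstrassCurve.Affine.baseChange_nonsingular (W := W) (f := j) j.injective xA
          ⟨y, hy⟩).mp h
      exact ⟨Point.some _ _ hn, by rw [Point.map_some]; rfl⟩
  rw [map_add, hgk, zero_add] at hsum
  exact hsum

include hΔ in
/-- **The quadratic relation of Frobenius.** -/
theorem frob_relation (T : (W⁄M).Point) :
    frobPt W M (frobPt W M T) - trFrob hΔ • frobPt W M T + (Fintype.card k : ℤ) • T = 0 := by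
  rw [← relMap_apply]
  have hb : ((W⁄M : Affine M)⁄(FF' (W⁄M : Affine M)) : Affine (FF' (W⁄M : Affine M))) =
      (W⁄(FF' (W⁄M : Affine M)) : Affine (FF' (W⁄M : Affine M))) := by
    change (WeierstrassCurve.map (WeierstrassCurve.map W _) _) = WeierstrassCurve.map W _
    rw [WeierstrassCurve.map_map, ← IsScalarTower.algebraMap_eq]
  have hns : (W⁄(FF' (W⁄M : Affine M))).Nonsingular (xg (W⁄M : Affine M)) (yg (W⁄M : Affine M)) :=
    (equation_iff_nonsingular_of_Δ_ne_zero (delta_ff W hΔ)).mp (hb ▸ equation_gen _)
  exact relMap_eq_zero_aux hΔ hns (@xg_transcendental M _ (W⁄M : Affine M) (Classical.decEq _)) T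

end Fermat.FR
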