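import Fermat.Agent.FR.Forms
import Fermat.Agent.FR.AddSub

/-!
# The generic point, the involution, substitution

The function field of `W` carries the point `gen = (x, y)`. A point of `W` over an extension field
`M` with transcendental abscissa defines a `k`-embedding `ev` of the function field into `M`.
-/

set_option autoImplicit false

open WeierstrassCurve WeierstrassCurve.Affine Polynomial
open scoped WeierstrassCurve.Affine Polynomial.Bivariate

namespace Fermat.FR

variable {k : Type} [Field k] (W : Affine k)

/-- The function field of the curve. -/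
abbrev FF' : Type := W.FunctionField

/-- The coordinate function `x`. -/
noncomputable def xg : FF' W :=
  algebraMap W.CoordinateRing (FF' W) (CoordinateRing.mk W (C Polynomial.X))

/-- The coordinate function `y`. -/
noncomputable def yg : FF' W :=
  algebraMap W.CoordinateRing (FF' W) (CoordinateRing.mk W Polynomial.X)

/-- The embedding of `k[X]` in the function field by `X ↦ x`. -/
noncomputable def iX : k[X] →ₐ[k] FF' W := Polynomial.aeval (xg W)

/-- `iX W p` is the class of `p` in the coordinate ring, seen in the function field. -/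
lemma iX_eq (p : k[X]) :
    iX W p = algebraMap W.CoordinateRing (FF' W) (CoordinateRing.mk W (C p)) := by
  let g : k[X] →ₐ[k] FF' W :=
    ((IsScalarTower.toAlgHom k W.CoordinateRing (FF' W)).comp
      (IsScalarTower.toAlgHom k k[X] W.CoordinateRing))
  have hg : ∀ q, g q = algebraMap W.CoordinateRing (FF' W) (CoordinateRing.mk W (C q)) :=
    fun q => rfl
  have : iX W = g := Polynomial.algHom_ext (by rw [iX, aeval_X, hg]; rfl)
  rw [this, hg]

/-- The coordinate `x` satisfies no polynomial: `k[X]` embeds in the function field. -/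
lemma iX_injective : Function.Injective (iX W) := by
  intro p q h
  rw [iX_eq, iX_eq] at h
  exact (FaithfulSMul.algebraMap_injective k[X] W.CoordinateRing)
    ((IsFractionRing.injective W.CoordinateRing (FF' W)) h)

/-- A nonzero polynomial in `x` is nonzero in the function field. -/
lemma aeval_ne_zero {p : k[X]} (hp : p ≠ 0) : iX W p ≠ 0 := fun h =>
  hp (iX_injective W (by rw [h, map_zero]))

/-- The element `p + q y` of the coordinate ring, seen in the function field. -/
lemma algebraMap_mk (p q : k[X]) :
    algebraMap W.CoordinateRing (FF' W) (p • 1 + q • CoordinateRing.mk W Polynomial.X) =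
      iX W p + iX W q * yg W := by
  rw [iX_eq, iX_eq, yg, CoordinateRing.smul, CoordinateRing.smul, mul_one, map_add, map_mul]

/-- The coordinate functions satisfy the equation of the curve. -/
lemma equation_gen : (W⁄(FF' W)).Equation (xg W) (yg W) := by
  rw [equation_iff']
  have h0 : algebraMap W.CoordinateRing (FF' W) (CoordinateRing.mk W W.polynomial) = 0 := by
    rw [show CoordinateRing.mk W W.polynomial = 0 from AdjoinRoot.mk_self, map_zero]
  simp only [Affine.polynomial, map_add, map_sub, map_mul, map_pow] at h0
  have hC : ∀ a : k, algebraMap W.CoordinateRing (FF' W) (CoordinateRing.mk W (C (C a))) =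
      algebraMap k (FF' W) a := fun a => by
    rw [← iX_eq, iX, aeval_C]
  simp only [hC] at h0
  simp [xg, yg] at h0 ⊢
  linear_combination h0

variable [DecidableEq (FF' W)]

omit [DecidableEq (FF' W)] in
/-- The discriminant stays nonzero in every extension field. -/
lemma delta_ff {M : Type} [Field M] [Algebra k M] (hΔ : W.Δ ≠ 0) : (W⁄M : Affine M).Δ ≠ 0 := by
  change (WeierstrassCurve.map W (algebraMap k M)).Δ ≠ 0
  rw [WeierstrassCurve.map_Δ]
  exact (_root_.map_ne_zero _).mpr hΔ

/-- The generic point `(x, y)`, a point of the curve over its function field. -/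
noncomputable def gen (hΔ : W.Δ ≠ 0) : (W⁄(FF' W)).Point :=
  .some _ _ ((equation_iff_nonsingular_of_Δ_ne_zero (delta_ff W hΔ)).mp (equation_gen W))

variable {W}

/-! ### substitution of a point with transcendental abscissa -/

variable {M : Type} [Field M] [Algebra k M] [DecidableEq M]

/-- Evaluation of the coordinate ring at a point `(x, y)` over an extension field. -/
noncomputable def ev0 {x y : M} (h : (W⁄M).Equation x y) : W.CoordinateRing →ₐ[k] M :=
  AdjoinRoot.liftAlgHom W.polynomial (Polynomial.aeval x) y (by
    have := h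
    rw [equation_iff'] at this
    simp only [Affine.polynomial, ← coe_eval₂RingHom, map_add, map_sub, map_mul, map_pow]
    simp at this ⊢
    linear_combination this)

omit [DecidableEq (FF' W)] [DecidableEq M] in
/-- Evaluation at `(x, y)` sends `p + q Y` to `p(x) + q(x) y`. -/
lemma ev0_mk {x y : M} (h : (W⁄M).Equation x y) (p q : k[X]) :
    ev0 h (p • 1 + q • CoordinateRing.mk W Polynomial.X) = aeval x p + aeval x q * y := by
  rw [CoordinateRing.smul, CoordinateRing.smul, mul_one, map_add, map_mul]
  simp [ev0, CoordinateRing.mk]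

omit [DecidableEq (FF' W)] [DecidableEq M] in
/-- Evaluation at a point with transcendental abscissa is injective. -/
lemma ev0_injective {x y : M} (h : (W⁄M).Equation x y) (hx : Transcendental k x) :
    Function.Injective (ev0 h) := by
  rw [injective_iff_map_eq_zero]
  intro z hz
  obtain ⟨p, q, rfl⟩ := CoordinateRing.exists_smul_basis_eq z
  by_contra hne
  have : Module.Finite k[X] W.CoordinateRing := Module.Finite.of_basis (CoordinateRing.basis W)
  have hn : Algebra.norm k[X] (p • (1 : W.CoordinateRing) + q •
      CoordinateRing.mk W Polynomial.X) ≠ 0 :=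
    (Algebra.norm_ne_zero_iff (R := k[X])).mpr hne
  apply hn
  apply transcendental_iff.mp hx
  rw [CoordinateRing.norm_smul_basis]
  rw [ev0_mk] at hz
  have := h
  rw [equation_iff'] at this
  simp at this
  simp
  linear_combination (aeval x p - aeval x q * (y + algebraMap k M W.a₁ * x + algebraMap k M W.a₃)) *
    hz +
    (aeval x q) ^ 2 * this

/-- The embedding of the function field defined by a point with transcendental abscissa. -/
noncomputable def ev {x y : M} (h : (W⁄M).Equation x y) (hx : Transcendental k x) :
    FF' W →ₐ[k] M :=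
  IsFractionRing.liftAlgHom (ev0_injective h hx)

omit [DecidableEq (FF' W)] [DecidableEq M] in
/-- The substitution extends evaluation on the coordinate ring. -/
lemma ev_algebraMap {x y : M} (h : (W⁄M).Equation x y) (hx : Transcendental k x)
    (z : W.CoordinateRing) : ev h hx (algebraMap _ _ z) = ev0 h z := by
  simp [ev, IsFractionRing.liftAlgHom_apply]

/-- The substitution sends the function `x` to the abscissa. -/
lemma ev_xg {x y : M} (h : (W⁄M).Equation x y) (hx : Transcendental k x) :
    ev h hx (xg W) = x := by
  rw [xg, ev_algebraMap]; simp [ev0, CoordinateRing.mk]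

/-- The substitution sends the function `y` to the ordinate. -/
lemma ev_yg {x y : M} (h : (W⁄M).Equation x y) (hx : Transcendental k x) :
    ev h hx (yg W) = y := by
  rw [yg, ev_algebraMap]; simp [ev0, CoordinateRing.mk]

/-- The substitution attached to a point carries the generic point to that point. -/
lemma map_gen (hΔ : W.Δ ≠ 0) {x y : M} (hns : (W⁄M).Nonsingular x y) (hx : Transcendental k x) :
    Point.map (ev hns.1 hx) (gen W hΔ) = Point.some x y hns := by
  rw [gen, Point.map_some]
  simp only [Point.some.injEq]
  exact ⟨ev_xg hns.1 hx, ev_yg hns.1 hx⟩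

/-- The function `x` is transcendental over `k`. -/
lemma xg_transcendental : Transcendental k (xg W) :=
  transcendental_iff.mpr fun p hp => iX_injective W (by rw [map_zero]; exact hp)

omit [DecidableEq (FF' W)] in
/-- The conjugate `(x, -y - a₁x - a₃)` of the generic point is on the curve. -/
lemma equation_conj : (W⁄(FF' W)).Equation (xg W)
    (-yg W - algebraMap k (FF' W) W.a₁ * xg W - algebraMap k (FF' W) W.a₃) := by
  have := equation_gen W
  rw [equation_iff'] at this ⊢
  simp at this ⊢
  linear_combination this

variable (W) in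
/-- The involution `y ↦ -y - a₁x - a₃`. -/
noncomputable def invol : FF' W →ₐ[k] FF' W := ev (equation_conj (W := W)) xg_transcendental

/-- The involution negates the generic point. -/
lemma invol_gen (hΔ : W.Δ ≠ 0) : Point.map (invol W) (gen W hΔ) = -gen W hΔ := by
  rw [gen, Point.map_some, Point.neg_some, Point.some.injEq]
  refine ⟨ev_xg _ _, ?_⟩
  rw [invol, ev_yg, negY]
  simp

/-- The involution fixes the polynomials in `x`. -/
lemma invol_iX (p : k[X]) : invol W (iX W p) = iX W p := by
  rw [iX, ← Polynomial.aeval_algHom_apply, invol, ev_xg]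

omit [DecidableEq (FF' W)] in
/-- On a nonsingular curve the function `2y + a₁x + a₃` is nonzero. -/
lemma two_yg_add_ne_zero (hΔ : W.Δ ≠ 0) :
    2 * yg W + algebraMap k (FF' W) W.a₁ * xg W + algebraMap k (FF' W) W.a₃ ≠ 0 := by
  intro h0
  have h2 : algebraMap W.CoordinateRing (FF' W)
      ((C W.a₁ * Polynomial.X + C W.a₃ : k[X]) • 1 + (2 : k[X]) •
        CoordinateRing.mk W Polynomial.X) = 0 := by
    rw [algebraMap_mk]
    simp [iX, map_ofNat] at h0 ⊢
    linear_combination h0
  obtain ⟨e1, e2⟩ := CoordinateRing.smul_basis_eq_zero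
    ((injective_iff_map_eq_zero _).mp (IsFractionRing.injective W.CoordinateRing (FF' W)) _ h2)
  have c2 : (2 : k) = 0 := by
    have := congrArg (fun f => coeff f 0) e2
    simpa [← C_ofNat (R := k)] using this
  have c1 : W.a₁ = 0 := by simpa using congrArg (fun f => coeff f 1) e1
  have c3 : W.a₃ = 0 := by simpa using congrArg (fun f => coeff f 0) e1
  -- in characteristic two with `a₁ = a₃ = 0` the discriminant vanishes
  apply hΔ
  simp only [WeierstrassCurve.Δ, WeierstrassCurve.b₂, WeierstrassCurve.b₄, WeierstrassCurve.b₆,
    WeierstrassCurve.b₈, c1, c3]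
  linear_combination (-8 * W.a₂ ^ 2 * (4 * W.a₂ * W.a₆ - W.a₄ ^ 2) - 32 * W.a₄ ^ 3 -
    216 * W.a₆ ^ 2 + 144 * W.a₂ * W.a₄ * W.a₆) * c2

/-- Elements fixed by the involution are rational in `x`. -/
theorem exists_eq_div_of_fixed (hΔ : W.Δ ≠ 0) {z : FF' W} (hz : invol W z = z) :
    ∃ a b : k[X], b ≠ 0 ∧ z = iX W a / iX W b := by
  classical
  obtain ⟨c, d, hd, rfl⟩ := IsFractionRing.div_surjective W.CoordinateRing z
  have hd0 : d ≠ 0 := nonZeroDivisors.ne_zero hd
  obtain ⟨pd, qd, rfl⟩ := CoordinateRing.exists_smul_basis_eq d
  obtain ⟨pc, qc, rfl⟩ := CoordinateRing.exists_smul_basis_eq c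
  have : Module.Finite k[X] W.CoordinateRing := Module.Finite.of_basis (CoordinateRing.basis W)
  set A1 := algebraMap k (FF' W) W.a₁
  set A3 := algebraMap k (FF' W) W.a₃
  set n := Algebra.norm k[X] (pd • (1 : W.CoordinateRing) + qd • CoordinateRing.mk W Polynomial.X)
    with hn
  have hn0 : n ≠ 0 := (Algebra.norm_ne_zero_iff (R := k[X])).mpr hd0
  have hB : ∀ p q : k[X], invol W (algebraMap W.CoordinateRing (FF' W)
      (p • 1 + q • CoordinateRing.mk W Polynomial.X)) =
      iX W p + iX W q * (-yg W - A1 * xg W - A3) := by
    intro p q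
    rw [algebraMap_mk, map_add, map_mul, invol_iX, invol_iX, invol, ev_yg]
  have hnorm : iX W n = (iX W pd + iX W qd * yg W) *
      (iX W pd + iX W qd * (-yg W - A1 * xg W - A3)) := by
    have he := equation_gen W
    rw [equation_iff'] at he
    simp at he
    rw [hn, CoordinateRing.norm_smul_basis]
    simp [iX, A1, A3]
    linear_combination (aeval (xg W) qd) ^ 2 * he
  have hD : iX W pd + iX W qd * yg W ≠ 0 := by
    rw [← algebraMap_mk]
    exact IsFractionRing.to_map_ne_zero_of_mem_nonZeroDivisors hd
  have hz' := hz
  rw [map_div₀, hB, hB, algebraMap_mk, algebraMap_mk] at hz'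
  have hD' : iX W pd + iX W qd * (-yg W - A1 * xg W - A3) ≠ 0 := fun h =>
    aeval_ne_zero W hn0 (by rw [hnorm, h, mul_zero])
  rw [div_eq_div_iff hD' hD] at hz'
  have hδ : 2 * yg W + A1 * xg W + A3 ≠ 0 := two_yg_add_ne_zero hΔ
  -- the numerator after multiplication by the conjugate of the denominator
  refine ⟨pc * pd - pc * qd * (C W.a₁ * Polynomial.X + C W.a₃) -
    qc * qd * (Polynomial.X ^ 3 + C W.a₂ * Polynomial.X ^ 2 + C W.a₄ * Polynomial.X + C W.a₆),
    n, hn0, ?_⟩
  rw [algebraMap_mk, algebraMap_mk, div_eq_div_iff hD (aeval_ne_zero W hn0), hnorm]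
  have he := equation_gen W
  rw [equation_iff'] at he
  simp at he
  -- the fixed condition says `qc pd = pc qd`
  have hrel : iX W qc * iX W pd - iX W pc * iX W qd = 0 := by
    have : (2 * yg W + A1 * xg W + A3) * (iX W qc * iX W pd - iX W pc * iX W qd) = 0 := by
      linear_combination -hz'
    exact (mul_eq_zero.mp this).resolve_left hδ
  simp [iX, A1, A3] at hrel ⊢
  linear_combination (yg W * (aeval (xg W) pd + aeval (xg W) qd * yg W)) * hrel -
    ((aeval (xg W) qd) * (aeval (xg W) qc) * (aeval (xg W) pd + aeval (xg W) qd * yg W)) * he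

end Fermat.FR
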