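import Fermat.Agent.FR.Generic

/-!
# The degree on odd points of the function field and its parallelogram law

`height_add_add_height_sub`; `Quad` makes the degree a quadratic form on endomorphisms (`Endo`).
-/

set_option autoImplicit false

open WeierstrassCurve WeierstrassCurve.Affine Polynomial
open scoped WeierstrassCurve.Affine

namespace Fermat.FR

variable {k : Type} [Field k] (W : Affine k) [DecidableEq (FF' W)]

/-- Points `P` of `W` over the function field with `invol P = -P`. -/
noncomputable def oddPts : AddSubgroup (W⁄(FF' W)).Point where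
  carrier := {P | Point.map (invol W) P = -P}
  zero_mem' := by
    change Point.map (invol W) 0 = -0
    rw [map_zero, neg_zero]
  add_mem' := fun {P Q} hP hQ => by
    change Point.map (invol W) (P + Q) = -(P + Q)
    rw [map_add, hP, hQ, neg_add]
  neg_mem' := fun {P} hP => by
    change Point.map (invol W) (-P) = -(-P)
    rw [map_neg, hP]

variable {W}

/-- A point is odd when the involution negates it. -/
lemma mem_oddPts {P : (W⁄(FF' W)).Point} :
    P ∈ oddPts W ↔ Point.map (invol W) P = -P := Iff.rfl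

/-- The generic point is odd. -/
lemma gen_mem (hΔ : W.Δ ≠ 0) : gen W hΔ ∈ oddPts W := invol_gen hΔ

/-- `T` represents the abscissa of `P`: it is primitive and proportional to the projective
abscissa `xRep P`. -/
def Rep (P : (W⁄(FF' W)).Point) (T : Fin 2 → k[X]) : Prop :=
  Prim T ∧ ∃ α : FF' W, ∀ i, iX W (T i) = α * P.xRep i

omit [DecidableEq (FF' W)] in
/-- The origin is represented by `[1, 0]`. -/
lemma rep_zero : Rep (0 : (W⁄(FF' W)).Point) ![1, 0] := by
  refine ⟨fun π hπ => ⟨0, fun h => hπ.not_isUnit (isUnit_of_dvd_one (by simpa using h))⟩, 1,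
    fun i => ?_⟩
  fin_cases i <;> simp

/-- A pair of coprime polynomials is primitive. -/
lemma prim_of_isCoprime {a b : k[X]} (h : IsCoprime a b) : Prim ![a, b] := by
  intro π hπ
  by_contra hno
  push Not at hno
  exact hπ.not_isUnit (h.isUnit_of_dvd' (hno 0) (hno 1))

/-- Every odd point has a representing tuple. -/
lemma exists_rep (hΔ : W.Δ ≠ 0) {P : (W⁄(FF' W)).Point} (hP : P ∈ oddPts W) :
    ∃ T, Rep P T := by
  classical
  rcases P with _ | ⟨x, y, h⟩
  · exact ⟨_, rep_zero⟩
  · rw [mem_oddPts, Point.map_some, Point.neg_some, Point.some.injEq] at hP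
    obtain ⟨a, b, hb, hx⟩ := exists_eq_div_of_fixed hΔ hP.1
    obtain ⟨g, a', b', hg, hco, ha', hb'⟩ :
        ∃ g a' b' : k[X], g ≠ 0 ∧ IsCoprime a' b' ∧ a = g * a' ∧ b = g * b' := by
      obtain ⟨p, q, g, hpq, hp, hq⟩ := UniqueFactorizationMonoid.exists_reduced_factors' a b hb
      exact ⟨g, p, q, fun h0 => hb (by rw [← hq, h0, zero_mul]), hpq.isCoprime, hp.symm, hq.symm⟩
    refine ⟨![a', b'], prim_of_isCoprime hco, iX W b', fun i => ?_⟩
    have hg0 := aeval_ne_zero W hg
    have hb0 : b' ≠ 0 := fun h0 => hb (by rw [hb', h0, mul_zero])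
    have hb1 := aeval_ne_zero W hb0
    rw [ha', hb', map_mul, map_mul, mul_div_mul_left _ _ hg0] at hx
    fin_cases i
    · simp [hx, mul_div_cancel₀ _ hb1]
    · simp

omit [DecidableEq (FF' W)] in
/-- The factor between a primitive tuple and the abscissa it represents is nonzero. -/
lemma rep_scalar_ne_zero {P : (W⁄(FF' W)).Point} {T : Fin 2 → k[X]} (hT : Prim T) {α : FF' W}
    (hα : ∀ i, iX W (T i) = α * P.xRep i) : α ≠ 0 := fun h0 => by
  obtain ⟨j, hj⟩ := exists_ne_zero_of_prim hT
  exact aeval_ne_zero W hj (by rw [hα, h0, zero_mul])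

omit [DecidableEq (FF' W)] in
/-- All representing tuples of one point have the same degree. -/
lemma rep_tdeg {P : (W⁄(FF' W)).Point} {S T : Fin 2 → k[X]} (hS : Rep P S) (hT : Rep P T) :
    tdeg S = tdeg T := by
  obtain ⟨hS, α, hα⟩ := hS
  obtain ⟨hT, β, hβ⟩ := hT
  refine tdeg_eq_of_proportional (f := (iX W).toRingHom) (iX_injective W) hS hT fun i j => ?_
  change iX W (S i) * iX W (T j) = iX W (S j) * iX W (T i)
  rw [hα, hα, hβ, hβ]
  ring

open scoped Classical in
/-- The degree of the abscissa of a point, as a rational function of `x` (zero if no tuple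
represents it). -/
noncomputable def height (P : (W⁄(FF' W)).Point) : ℕ :=
  if h : ∃ T, Rep P T then tdeg h.choose else 0

omit [DecidableEq (FF' W)] in
/-- The height is the degree of any representing tuple. -/
lemma height_eq {P : (W⁄(FF' W)).Point} {T : Fin 2 → k[X]} (hT : Rep P T) :
    height P = tdeg T := by
  classical
  rw [height, dif_pos ⟨T, hT⟩]
  exact rep_tdeg (Exists.choose_spec (⟨T, hT⟩ : ∃ T, Rep P T)) hT

omit [DecidableEq (FF' W)] in
/-- The origin has height zero. -/
@[simp] lemma height_zero : height (0 : (W⁄(FF' W)).Point) = 0 := by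
  rw [height_eq rep_zero]
  exact le_antisymm (Finset.sup_le fun i _ => by fin_cases i <;> simp) (Nat.zero_le _)

omit [DecidableEq (FF' W)] in
/-- The generic point has height one. -/
lemma height_gen (hΔ : W.Δ ≠ 0) : height (gen W hΔ) = 1 := by
  have hR : Rep (gen W hΔ) ![Polynomial.X, 1] := by
    refine ⟨prim_of_isCoprime isCoprime_one_right, 1, fun i => ?_⟩
    fin_cases i <;> simp [gen, iX]
  rw [height_eq hR]
  apply le_antisymm
  · exact Finset.sup_le fun i _ => by fin_cases i <;> simp
  · exact le_trans (by simp) (natDegree_le_tdeg _ 0)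

omit [DecidableEq (FF' W)] in
/-- The addition-and-subtraction forms of a nonsingular curve have no common zero. -/
lemma noZero_addSubMap (hΔ : W.Δ ≠ 0) : NoZero (WeierstrassCurve.addSubMap W) := by
  intro M _ _ x hx
  have : (W⁄M : WeierstrassCurve M).IsElliptic :=
    ⟨by
      change IsUnit (WeierstrassCurve.map W (algebraMap k M)).Δ
      rw [WeierstrassCurve.map_Δ]
      exact hΔ.isUnit.map _⟩
  have h := WeierstrassCurve.addSubMap_ne_zero (W := (W⁄M : WeierstrassCurve M)) hx
  obtain ⟨i, hi⟩ := Function.ne_iff.mp h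
  refine ⟨i, ?_⟩
  rw [aeval_addSubMap]
  exact hi

/-- The forms are quadratic: scaling the argument by `c` scales the values by `c ^ 2`. -/
lemma addSubVal_smul {L : Type*} [Field L] (V : Affine L) (c : L) (v : Fin 3 → L) :
    addSubVal V (fun i => c * v i) = fun i => c ^ 2 * addSubVal V v i := by
  funext i
  fin_cases i <;> simp [addSubVal_zero, addSubVal_one, addSubVal_two] <;> ring

omit [DecidableEq (FF' W)] in
/-- The symmetric square of two abscissae, written out. -/
lemma sym2x_eq {P Q : (W⁄(FF' W)).Point} :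
    P.sym2x Q = ![P.xRep 0 * Q.xRep 0, P.xRep 0 * Q.xRep 1 + P.xRep 1 * Q.xRep 0,
      P.xRep 1 * Q.xRep 1] := rfl

omit [DecidableEq (FF' W)] in
/-- The symmetric product of representatives represents the symmetric square of the abscissae. -/
lemma iX_sym2 {P Q : (W⁄(FF' W)).Point} {S T : Fin 2 → k[X]} {α β : FF' W}
    (hα : ∀ i, iX W (S i) = α * P.xRep i) (hβ : ∀ i, iX W (T i) = β * Q.xRep i) (i : Fin 3) :
    iX W (sym2 S T i) = (α * β) * P.sym2x Q i := by
  rw [sym2x_eq]
  fin_cases i <;> simp [sym2, hα, hβ] <;> ring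

/-- **Parallelogram law** for the height of odd points. -/
theorem height_add_add_height_sub (hΔ : W.Δ ≠ 0) {P Q : (W⁄(FF' W)).Point} (hP : P ∈ oddPts W)
    (hQ : Q ∈ oddPts W) :
    height (P + Q) + height (P - Q) = 2 * height P + 2 * height Q := by
  obtain ⟨SP, hSP⟩ := exists_rep hΔ hP
  obtain ⟨SQ, hSQ⟩ := exists_rep hΔ hQ
  obtain ⟨Sa, hSa⟩ := exists_rep hΔ (add_mem hP hQ)
  obtain ⟨Ss, hSs⟩ := exists_rep hΔ (sub_mem hP hQ)
  rw [height_eq hSP, height_eq hSQ, height_eq hSa, height_eq hSs]
  obtain ⟨hSP, α, hα⟩ := hSP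
  obtain ⟨hSQ, β, hβ⟩ := hSQ
  obtain ⟨hSa, γ, hγ⟩ := hSa
  obtain ⟨hSs, δ, hδ⟩ := hSs
  obtain ⟨hG, hGd⟩ := prim_eval (prim_sym2 hSP hSQ).1 (WeierstrassCurve.isHomogeneous_addSubMap W)
    (noZero_addSubMap hΔ)
  rw [(prim_sym2 hSP hSQ).2] at hGd
  obtain ⟨hH, hHd⟩ := prim_sym2 hSa hSs
  -- both tuples represent the symmetric square of `x(P + Q), x(P - Q)`: compare degrees
  obtain ⟨c, hc⟩ := addSubVal_sym2x P Q
  have hval : ∀ i, iX W (MvPolynomial.aeval (sym2 SP SQ) (WeierstrassCurve.addSubMap W i)) =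
      (α * β) ^ 2 * c * (P + Q).sym2x (P - Q) i := by
    intro i
    rw [MvPolynomial.comp_aeval_apply (f := sym2 SP SQ) (iX W)]
    rw [show (fun j => iX W (sym2 SP SQ j)) = fun j => (α * β) * P.sym2x Q j from
      funext (iX_sym2 hα hβ)]
    rw [aeval_addSubMap, addSubVal_smul, hc]
    simp [mul_assoc]
  have := tdeg_eq_of_proportional (f := (iX W).toRingHom) (iX_injective W) hG hH fun i j => by
    change iX W _ * iX W _ = iX W _ * iX W _
    rw [hval, hval, iX_sym2 hγ hδ, iX_sym2 hγ hδ]
    ring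
  rw [hGd, hHd] at this
  omega

end Fermat.FR
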