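import Fermat.Agent.FR.Count
import Fermat.Agent.EC.Reduction
import Fermat.Agent.FLAT.LocalGroup
import Fermat.Prelude.Def_FLTPrelim_Modularity

/-!
# Reduction modulo a good place is a homomorphism; the relation of Frobenius on torsion

`redP_add`; `Torsion` transports `frob_relation` along it to the curve over `ℚ`.
-/

set_option autoImplicit false

noncomputable section

open WeierstrassCurve WeierstrassCurve.Affine Fermat.EC Fermat.EC.Val Fermat.EC.Red IsLocalRing
  Fermat.FLAT
open scoped WeierstrassCurve.Affine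

namespace Fermat.FR

local notation "ℚbar" => AlgebraicClosure ℚ

/-- The slope is the only number satisfying both the secant and the tangent-type identity. -/
lemma slope_unique {F : Type*} [Field F] [DecidableEq F] {V : Affine F} {x₁ x₂ y₁ y₂ l : F}
    (h₁ : V.Equation x₁ y₁) (h₂ : V.Equation x₂ y₂) (hxy : ¬(x₁ = x₂ ∧ y₁ = V.negY x₂ y₂))
    (e₁ : l * (x₁ - x₂) = y₁ - y₂)
    (e₂ : l * (y₁ - V.negY x₂ y₂) =
      x₁ ^ 2 + x₁ * x₂ + x₂ ^ 2 + V.a₂ * (x₁ + x₂) + V.a₄ - V.a₁ * y₁) :
    V.slope x₁ x₂ y₁ y₂ = l := by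
  by_cases hx : x₁ = x₂
  · have hy : y₁ ≠ V.negY x₂ y₂ := fun e => hxy ⟨hx, e⟩
    obtain rfl := Y_eq_of_Y_ne h₁ h₂ hx hy
    subst hx
    rw [slope_of_Y_ne rfl hy, div_eq_iff (sub_ne_zero.mpr hy), e₂]
    ring
  · rw [slope_of_X_ne hx, div_eq_iff (sub_ne_zero.mpr hx), e₁]

variable (W : WeierstrassCurve ℤ)

/-- The curve over `ℚ̄`. -/
abbrev curveBar : Affine ℚbar := ((W.map (Int.castRingHom ℚ)).toAffine⁄ℚbar)

variable {ℓ : ℕ} {A : ValuationSubring ℚbar}

/-- The curve over `ℚ̄` is the direct base change of the integral model. -/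
lemma curveBar_eq : curveBar W = W.map (Int.castRingHom ℚbar) := EC.Line.overQbar_eq_map

/-- The curve over the residue field. -/
abbrev curveRes (A : ValuationSubring ℚbar) : Affine (ResidueField A) :=
  W.map (Int.castRingHom (ResidueField A))

/-- At a good place the reduced discriminant is nonzero. -/
lemma delta_res (h : IsPlace A ℓ) (hgood : ¬ (ℓ : ℤ) ∣ W.Δ) : (curveRes W A).Δ ≠ 0 := by
  have := charP_res h
  rw [WeierstrassCurve.map_Δ, eq_intCast, Ne, CharP.intCast_eq_zero_iff (ResidueField A) ℓ]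
  exact hgood

/-- The model over `A` reduces to `curveRes`. -/
lemma map_residue : (W.map (Int.castRingHom A)).map (residue A) = curveRes W A := by
  rw [WeierstrassCurve.map_map,
    RingHom.ext_int ((residue A).comp (Int.castRingHom A)) (Int.castRingHom (ResidueField A))]

/-- The model over `A` has generic fibre `curveBar`. -/
lemma map_subtype : (W.map (Int.castRingHom A)).map A.subtype = curveBar W := by
  rw [curveBar_eq, WeierstrassCurve.map_map,
    RingHom.ext_int (A.subtype.comp (Int.castRingHom A)) (Int.castRingHom ℚbar)]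

/-- The reduction of an integral point is on the reduced curve. -/
lemma equation_red (h : IsPlace A ℓ) {x y : ℚbar} (he : (curveBar W).Equation x y)
    (hx : Ge A ℓ x 0) : (curveRes W A).Equation (red A x) (red A y) := by
  have hy := ge_y h (integralAt_overQbar W h) he hx
  rw [red_of_mem ((mem_iff_ge h x).mpr hx), red_of_mem ((mem_iff_ge h y).mpr hy), ← map_residue]
  refine Equation.map _ ?_
  rw [← map_equation (f := A.subtype) (hf := Subtype.coe_injective)]
  change WeierstrassCurve.Affine.Equation ((W.map (Int.castRingHom A)).map A.subtype) x y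
  rw [map_subtype]
  exact he

variable [DecidableEq (ResidueField A)]

/-- Reduction of points at a good place; points with nonintegral abscissa go to zero. -/
def redP (h : IsPlace A ℓ) (hgood : ¬ (ℓ : ℤ) ∣ W.Δ) :
    (curveBar W).Point → (curveRes W A).Point
  | .zero => 0
  | .some x y hns =>
    haveI := Classical.dec (Ge A ℓ x 0)
    if hx : Ge A ℓ x 0 then
      .some (red A x) (red A y)
        ((equation_iff_nonsingular_of_Δ_ne_zero (delta_res W h hgood)).mp
          (equation_red W h hns.1 hx))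
    else 0

variable {W} (h : IsPlace A ℓ) (hgood : ¬ (ℓ : ℤ) ∣ W.Δ)

omit [DecidableEq (ResidueField ↥A)] in
/-- Reduction of an integral point, coordinatewise. -/
lemma redP_some {x y : ℚbar} {hns : (curveBar W).Nonsingular x y} (hx : Ge A ℓ x 0) :
    redP W h hgood (.some x y hns) = .some (red A x) (red A y)
      ((equation_iff_nonsingular_of_Δ_ne_zero (delta_res W h hgood)).mp
        (equation_red W h hns.1 hx)) := by
  simp [redP, hx]

omit [DecidableEq (ResidueField ↥A)] in
/-- The points reducing to zero are those in `InE1`. -/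
lemma redP_eq_zero_iff {P : (curveBar W).Point} : redP W h hgood P = 0 ↔ InE1 A ℓ P := by
  rcases P with _ | ⟨x, y, hns⟩
  · simp [redP, InE1]
  · by_cases hx : Ge A ℓ x 0
    · simp [redP_some h hgood hx, InE1, hx]
    · simp [redP, InE1, hx]

/-- Reduction commutes with negation. -/
lemma redP_neg (P : (curveBar W).Point) : redP W h hgood (-P) = -redP W h hgood P := by
  rcases P with _ | ⟨x, y, hns⟩
  · rfl
  · rw [Point.neg_some]
    by_cases hx : Ge A ℓ x 0
    · have hy := ge_y h (integralAt_overQbar W h) hns.1 hx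
      rw [redP_some h hgood hx, redP_some h hgood hx, Point.neg_some, Point.some.injEq]
      refine ⟨rfl, ?_⟩
      set xA : A := ⟨x, (mem_iff_ge h x).mpr hx⟩
      set yA : A := ⟨y, (mem_iff_ge h y).mpr hy⟩
      rw [show red A y = residue A yA from red_of_mem _,
        show red A x = residue A xA from red_of_mem _,
        ← map_residue, map_negY, ← map_subtype W (A := A),
        show x = A.subtype xA from rfl, show y = A.subtype yA from rfl, map_negY]
      exact red_of_mem (SetLike.coe_mem ((W.map (Int.castRingHom A)).toAffine.negY xA yA))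
    · simp [redP, hx]

/-- Reduction is additive on integral points. -/
lemma redP_add_integral {x₁ y₁ x₂ y₂ : ℚbar} (h₁ : (curveBar W).Nonsingular x₁ y₁)
    (h₂ : (curveBar W).Nonsingular x₂ y₂) (hx₁ : Ge A ℓ x₁ 0) (hx₂ : Ge A ℓ x₂ 0) :
    redP W h hgood (.some x₁ y₁ h₁ + .some x₂ y₂ h₂) =
      redP W h hgood (.some x₁ y₁ h₁) + redP W h hgood (.some x₂ y₂ h₂) := by
  have hW := integralAt_overQbar W h
  have hy₁ := ge_y h hW h₁.1 hx₁
  have hy₂ := ge_y h hW h₂.1 hx₂
  rw [redP_some h hgood hx₁, redP_some h hgood hx₂]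
  set X₁ : A := ⟨x₁, (mem_iff_ge h x₁).mpr hx₁⟩
  set X₂ : A := ⟨x₂, (mem_iff_ge h x₂).mpr hx₂⟩
  set Y₁ : A := ⟨y₁, (mem_iff_ge h y₁).mpr hy₁⟩
  set Y₂ : A := ⟨y₂, (mem_iff_ge h y₂).mpr hy₂⟩
  set V : Affine A := W.map (Int.castRingHom A) with hV
  have ex₁ : red A x₁ = residue A X₁ := red_of_mem _
  have ex₂ : red A x₂ = residue A X₂ := red_of_mem _
  have ey₁ : red A y₁ = residue A Y₁ := red_of_mem _
  have ey₂ : red A y₂ = residue A Y₂ := red_of_mem _
  have hneg : (curveBar W).negY x₂ y₂ = ((V.negY X₂ Y₂ : A) : ℚbar) := by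
    rw [← map_subtype W (A := A)]; exact map_negY (f := A.subtype) (W' := V) X₂ Y₂
  have hnegr : (curveRes W A).negY (red A x₂) (red A y₂) = residue A (V.negY X₂ Y₂) := by
    rw [ex₂, ey₂, ← map_residue]; exact map_negY (f := residue A) (W' := V) X₂ Y₂
  have gt_iff : ∀ a b : A, residue A a = residue A b ↔ Gt A ℓ ((a : ℚbar) - b) 0 := fun a b => by
    rw [← red_of_mem a.2, ← red_of_mem b.2]
    exact red_eq_iff h ((mem_iff_ge h _).mp a.2) ((mem_iff_ge h _).mp b.2)
  -- opposite reductions: the sum lies in the kernel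
  by_cases hop : red A x₁ = red A x₂ ∧ red A y₁ = (curveRes W A).negY (red A x₂) (red A y₂)
  · rw [Point.add_of_Y_eq hop.1 hop.2, redP_eq_zero_iff]
    refine inE1_add_of_opposite h hW h₁ h₂ hx₁ hx₂ ?_ ?_ (singRed_absurd_of_good W h hgood h₁.1)
    · exact (gt_iff X₁ X₂).mp (by rw [← ex₁, ← ex₂]; exact hop.1)
    · rw [hneg]; exact (gt_iff Y₁ _).mp (by rw [← ey₁, ← hnegr]; exact hop.2)
  have hne : Point.some x₁ y₁ h₁ + Point.some x₂ y₂ h₂ ≠ 0 := by
    intro hz
    have e := eq_neg_of_add_eq_zero_left hz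
    rw [Point.neg_some, Point.some.injEq] at e
    exact hop ⟨by rw [e.1], by rw [hnegr, e.2, hneg]; exact red_of_mem _⟩
  obtain ⟨l, ν, x₃, y₃, h₃, hc, esum, el₁, el₂⟩ := exists_collinear3 h₁ h₂ hne
  -- the slope is integral
  set m : A := X₁ ^ 2 + X₁ * X₂ + X₂ ^ 2 + V.a₂ * (X₁ + X₂) + V.a₄ - V.a₁ * Y₁ with hm
  have el₂' : l * (y₁ - (V.negY X₂ Y₂ : A)) = (m : ℚbar) := by
    rw [← hneg, el₂]
    simp [hm, hV, X₁, X₂, Y₁, curveBar_eq]
  have hl : Ge A ℓ l 0 := by
    by_cases hxr : red A x₁ = red A x₂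
    · have hyr : ¬ Gt A ℓ (y₁ - (V.negY X₂ Y₂ : A)) 0 := fun hgt => hop ⟨hxr, by
        rw [ey₁, hnegr]; exact (gt_iff Y₁ _).mpr hgt⟩
      have hu := (hy₁.sub h ((mem_iff_ge h _).mp (V.negY X₂ Y₂).2)).is_of_not_gt hyr
      have := ((mem_iff_ge h _).mp m.2).div h hu
      rwa [← el₂', mul_div_cancel_right₀ _ hu.1, sub_zero] at this
    · have hxr' : ¬ Gt A ℓ (x₁ - x₂) 0 := fun hgt => hxr (by
        rw [ex₁, ex₂]; exact (gt_iff X₁ X₂).mpr hgt)
      have hu := (hx₁.sub h hx₂).is_of_not_gt hxr'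
      have := (hy₁.sub h hy₂).div h hu
      rwa [← el₁, mul_div_cancel_right₀ _ hu.1, sub_zero] at this
  set L : A := ⟨l, (mem_iff_ge h l).mpr hl⟩
  have hslope : (curveRes W A).slope (red A x₁) (red A x₂) (red A y₁) (red A y₂) = residue A L := by
    refine slope_unique (equation_red W h h₁.1 hx₁) (equation_red W h h₂.1 hx₂) hop ?_ ?_
    · rw [ex₁, ex₂, ey₁, ey₂, ← map_sub, ← map_sub, ← map_mul]
      exact congrArg _ (Subtype.ext el₁)
    · rw [hnegr, ey₁, ← map_sub, ← map_mul]
      have e : L * (Y₁ - V.negY X₂ Y₂) = m := Subtype.ext el₂'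
      rw [e, hm, ex₁, ex₂]
      simp [hV, WeierstrassCurve.map]
  have e3 : x₃ = ((V.addX X₁ X₂ L : A) : ℚbar) := by
    have := hc.e₁
    simp [addX, hV, X₁, X₂, L, curveBar_eq] at this ⊢
    linear_combination this
  have e4 : (curveBar W).negY x₃ y₃ = ((V.addY X₁ X₂ Y₁ L : A) : ℚbar) := by
    have a1 := hc.line₁
    have a3 := hc.line₃
    have := hc.e₁
    simp [negY, addY, negAddY, addX, hV, X₁, X₂, L, Y₁, curveBar_eq] at a1 a3 this ⊢
    linear_combination a1 - a3 + (-l - (W.a₁ : ℚbar)) * this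
  have hx₃ : Ge A ℓ x₃ 0 := e3 ▸ (mem_iff_ge h _).mp (V.addX X₁ X₂ L).2
  rw [esum, Point.neg_some, redP_some h hgood hx₃, Point.add_some hop, Point.some.injEq, e4,
    e3, red_of_mem (SetLike.coe_mem _), red_of_mem (SetLike.coe_mem _), hslope, ex₁, ex₂, ey₁,
    ← map_residue, map_addX, map_addY]
  exact ⟨rfl, rfl⟩

/-- Reduction at a good place is additive. -/
theorem redP_add (P Q : (curveBar W).Point) :
    redP W h hgood (P + Q) = redP W h hgood P + redP W h hgood Q := by
  have hW := integralAt_overQbar W h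
  -- kernel plus an integral point
  have mixed : ∀ P Q : (curveBar W).Point, InE1 A ℓ P → ¬ InE1 A ℓ Q →
      redP W h hgood (P + Q) = redP W h hgood Q := by
    intro P Q hP hQ
    have hS : ¬ InE1 A ℓ (P + Q) := fun hS => hQ (by
      have := hS.add h hW hP.neg
      rwa [add_neg_cancel_comm] at this)
    rcases hSe : P + Q with _ | ⟨x₁, y₁, h₁⟩
    · exact absurd (by rw [hSe]; trivial) hS
    rcases Q with _ | ⟨x₂, y₂, h₂⟩
    · exact absurd trivial hQ
    rw [hSe] at hS
    have hx₁ : Ge A ℓ x₁ 0 := not_not.mp hS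
    have hx₂ : Ge A ℓ x₂ 0 := not_not.mp hQ
    have hsub : redP W h hgood (Point.some x₁ y₁ h₁ + -Point.some x₂ y₂ h₂) =
        redP W h hgood (Point.some x₁ y₁ h₁) + redP W h hgood (-Point.some x₂ y₂ h₂) := by
      rw [Point.neg_some]
      exact redP_add_integral h hgood h₁ _ hx₁ hx₂
    rw [show Point.some x₁ y₁ h₁ + -Point.some x₂ y₂ h₂ = P by rw [← hSe]; abel,
      (redP_eq_zero_iff h hgood).mpr hP, redP_neg, ← sub_eq_add_neg, eq_comm, sub_eq_zero] at hsub
    exact hsub
  by_cases hP : InE1 A ℓ P <;> by_cases hQ : InE1 A ℓ Q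
  · rw [(redP_eq_zero_iff h hgood).mpr hP, (redP_eq_zero_iff h hgood).mpr hQ,
      (redP_eq_zero_iff h hgood).mpr (hP.add h hW hQ), add_zero]
  · rw [mixed P Q hP hQ, (redP_eq_zero_iff h hgood).mpr hP, zero_add]
  · rw [add_comm P, mixed Q P hQ hP, (redP_eq_zero_iff h hgood).mpr hQ, add_zero]
  · rcases P with _ | ⟨x₁, y₁, h₁⟩
    · exact absurd trivial hP
    rcases Q with _ | ⟨x₂, y₂, h₂⟩
    · exact absurd trivial hQ
    exact redP_add_integral h hgood h₁ h₂ (not_not.mp hP) (not_not.mp hQ)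

/-- Reduction as a homomorphism. -/
def redHom : (curveBar W).Point →+ (curveRes W A).Point :=
  AddMonoidHom.mk' (redP W h hgood) (redP_add h hgood)

end Fermat.FR
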