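import Fermat.Agent.FR.Reduce

/-!
# Frobenius at a good prime satisfies `σ² - a_ℓ σ + ℓ = 0` on torsion prime to `ℓ`

`frobenius_relation`, from which `Trace` and `GR/CurveRep/Det` read the characteristic polynomial.
-/

set_option autoImplicit false

noncomputable section

open WeierstrassCurve WeierstrassCurve.Affine Fermat.EC Fermat.EC.Val Fermat.EC.Red IsLocalRing
  Fermat.FLAT
open scoped WeierstrassCurve.Affine

namespace Fermat.FR

local notation "ℚbar" => AlgebraicClosure ℚ
local notation "Γℚ" => (AlgebraicClosure ℚ ≃ₐ[ℚ] AlgebraicClosure ℚ)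

variable (W : WeierstrassCurve ℤ) {ℓ : ℕ} {A : ValuationSubring ℚbar}
  [DecidableEq (ResidueField A)] [Fact ℓ.Prime] [Algebra (ZMod ℓ) (ResidueField A)]

/-- The reduced curve over the residue field. -/
abbrev curveResMod : Affine (ResidueField A) :=
  ((W.reductionMod ℓ).toAffine⁄(ResidueField A))

omit [DecidableEq (ResidueField ↥A)] in
/-- The two descriptions of the reduced curve agree. -/
lemma curveResMod_eq : (curveRes W A) = curveResMod W (ℓ := ℓ) (A := A) := by
  change _ = WeierstrassCurve.map (WeierstrassCurve.map W _) _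
  rw [WeierstrassCurve.map_map, RingHom.ext_int
    ((algebraMap (ZMod ℓ) (ResidueField A)).comp (Int.castRingHom (ZMod ℓ)))
    (Int.castRingHom (ResidueField A))]

variable (h : IsPlace A ℓ) (hgood : ¬ (ℓ : ℤ) ∣ W.Δ)

/-- Reduction into the base change of the curve modulo `ℓ`. -/
def redMod : (curveBar W).Point →+ (curveResMod W (ℓ := ℓ) (A := A)).Point :=
  (castHom (curveResMod_eq W)).comp (redHom h hgood)

variable {W}

/-- Reduction carries a Frobenius at the place to the Frobenius of the curve modulo `ℓ`. -/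
lemma redMod_smul {σ : Γℚ} (hσ : A.IsFrobeniusAt σ ℓ) (P : (curveBar W).Point) :
    redMod W h hgood (σ • P) =
      frobPt (k := ZMod ℓ) (W.reductionMod ℓ).toAffine (ResidueField A) (redMod W h hgood P) := by
  have := charP_res h
  rcases P with _ | ⟨x, y, hns⟩
  · rw [show σ • (Point.zero : (curveBar W).Point) = 0 from rfl, map_zero]
    exact ((congrArg _ (map_zero (redMod W h hgood))).trans (map_zero _)).symm
  · have hmem : ∀ z : ℚbar, Ge A ℓ (σ z) 0 ↔ Ge A ℓ z 0 := fun z => by
      rw [← mem_iff_ge h, ← mem_iff_ge h]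
      exact apply_mem_iff_decomp hσ.mem_decompositionSubgroup z
    rw [Point.algEquiv_smul_def, Point.map_some]
    by_cases hx : Ge A ℓ x 0
    · have hy := ge_y h (integralAt_overQbar W h) hns.1 hx
      have hσx : Ge A ℓ (σ x) 0 := (hmem x).mpr hx
      simp only [redMod, AddMonoidHom.comp_apply, redHom, AddMonoidHom.mk'_apply,
        redP_some h hgood hx]
      rw [show ∀ hns', redP W h hgood (Point.some (σ.toAlgHom x) (σ.toAlgHom y) hns') = _ from
        fun hns' => redP_some h hgood (x := σ.toAlgHom x) hσx, castHom_some, castHom_some, frobPt,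
        Point.map_some, Point.some.injEq]
      simp only [frob_apply, ZMod.card]
      exact ⟨red_apply_frob h hσ hx, red_apply_frob h hσ hy⟩
    · have hσx : ¬ Ge A ℓ (σ x) 0 := fun hh => hx ((hmem x).mp hh)
      simp only [redMod, AddMonoidHom.comp_apply, redHom, AddMonoidHom.mk'_apply,
        (redP_eq_zero_iff h hgood (P := Point.some x y hns)).mpr hx]
      rw [show ∀ hns', redP W h hgood (Point.some (σ.toAlgHom x) (σ.toAlgHom y) hns') = 0 from
        fun hns' => (redP_eq_zero_iff h hgood).mpr hσx, map_zero, map_zero]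

omit [DecidableEq (ResidueField A)] [Algebra (ZMod ℓ) (ResidueField A)] in
include h hgood in
/-- **The Frobenius relation on torsion prime to `ℓ`.** -/
theorem frobenius_relation {σ : Γℚ} (hσ : A.IsFrobeniusAt σ ℓ) {n : ℕ} (hn : ¬ ℓ ∣ n)
    {P : (curveBar W).Point} (hP : n • P = 0) :
    σ • σ • P - W.apOfModel ℓ • σ • P + (ℓ : ℤ) • P = 0 := by
  classical
  have := charP_res h
  let : Algebra (ZMod ℓ) (ResidueField A) := ZMod.algebra _ ℓ
  set R := σ • σ • P - W.apOfModel ℓ • σ • P + (ℓ : ℤ) • P with hR
  have hnR : n • R = 0 := by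
    have h1 : ∀ Q : (curveBar W).Point, n • (σ • Q) = σ • (n • Q) := fun Q =>
      ((DistribSMul.toAddMonoidHom (curveBar W).Point σ).map_nsmul n Q).symm
    rw [hR, nsmul_add, nsmul_sub, h1, h1, hP, smul_comm n, h1, hP, smul_comm n, hP]
    simp only [show ∀ τ : Γℚ, τ • (0 : (curveBar W).Point) = 0 from fun τ => rfl, zsmul_zero,
      sub_zero, add_zero]
  have hΔ : (W.reductionMod ℓ).toAffine.Δ ≠ 0 := by
    change (W.map (Int.castRingHom (ZMod ℓ))).Δ ≠ 0
    rw [WeierstrassCurve.map_Δ, eq_intCast, Ne, ZMod.intCast_zmod_eq_zero_iff_dvd]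
    exact hgood
  have ha : W.apOfModel ℓ = trFrob hΔ := by
    rw [trFrob_eq, apOfModel, traceOfFrobenius, WeierstrassCurve.card, Nat.card_zmod, ZMod.card]
  -- the relation holds after reduction, and reduction is injective on `n`-torsion
  have key : redMod W h hgood R = 0 := by
    rw [hR, map_add, map_sub, map_zsmul, map_zsmul, redMod_smul h hgood hσ,
      redMod_smul h hgood hσ, ha]
    have := frob_relation (M := ResidueField A) hΔ (redMod W h hgood P)
    rwa [ZMod.card] at this
  have h0 : InE1 A ℓ R := by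
    apply (redP_eq_zero_iff h hgood).mp
    exact castHom_injective (curveResMod_eq W) (by
      simpa [redMod, redHom] using key)
  exact eq_zero_of_nsmul_eq_zero h (integralAt_overQbar W h) h0 hn hnR

end Fermat.FR
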