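import Fermat.Agent.FR.Torsion
import Fermat.Agent.EC.Weil.Det
import Fermat.Agent.CFT.Density.CycloChar
import Mathlib.LinearAlgebra.Matrix.Charpoly.Coeff

/-!
# Trace and determinant of Frobenius on `E[p]`

`galoisTrace_frobenius` (with the Weil pairing, `EC/Weil/Det`, for the determinant), the output of
`FR`, used to compare torsion representations with Hecke eigenvalues (`GR/RT/TorsionModular`,
`LR/Galois`).
-/

set_option autoImplicit false

noncomputable section

open WeierstrassCurve WeierstrassCurve.Affine Fermat.EC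
open scoped WeierstrassCurve.Affine

namespace Fermat.FR

local notation "ℚbar" => AlgebraicClosure ℚ
local notation "Γℚ" => (AlgebraicClosure ℚ ≃ₐ[ℚ] AlgebraicClosure ℚ)

variable (W : WeierstrassCurve ℤ) {p ℓ : ℕ} [Fact p.Prime]

/-- The `p`-torsion of the rational curve. -/
abbrev torsion (p : ℕ) :=
  Submodule.torsionBy ℤ ((W.map (Int.castRingHom ℚ)).toAffine⁄ℚbar).Point p

/-- `E[p]` is two-dimensional over `ZMod p`. -/
lemma finrank_torsion (hW : W.Δ ≠ 0) :
    Module.finrank (ZMod p) (torsion W p) = 2 ∧ Module.Finite (ZMod p) (torsion W p) := by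
  have hp : p.Prime := Fact.out
  have hT : Nat.card (torsion W p) = p ^ 2 := card_torsionBy
    (by show ((W.map (Int.castRingHom ℚ)).map (algebraMap ℚ ℚbar)).Δ ≠ 0
        rw [WeierstrassCurve.map_Δ, WeierstrassCurve.map_Δ]
        simpa using hW) hp.one_le
  have : Finite (torsion W p) := Nat.finite_of_card_ne_zero
    (by rw [hT]; exact pow_ne_zero _ hp.ne_zero)
  have : Module.Finite (ZMod p) (torsion W p) := Module.Finite.of_finite
  refine ⟨?_, inferInstance⟩
  have := Module.natCard_eq_pow_finrank (K := ZMod p) (V := torsion W p)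
  rw [hT, Nat.card_zmod] at this
  exact (Nat.pow_right_injective hp.two_le this).symm

/-- The determinant of a Frobenius at `ℓ` on `E[p]` is `ℓ`. -/
theorem det_frobenius (hW : W.Δ ≠ 0) (hℓ : ℓ.Prime) (hℓp : ℓ ≠ p)
    {A : ValuationSubring ℚbar} (hA : A.LiesOverPrime ℓ) {σ : Γℚ} (hσ : A.IsFrobeniusAt σ ℓ) :
    LinearMap.det (Point.galoisRepModuleEnd (K := ℚbar) ℚ
      (W.map (Int.castRingHom ℚ)).toAffine p σ) = (ℓ : ZMod p) := by
  have : NeZero p := ⟨(Fact.out : p.Prime).ne_zero⟩
  have hd := Fermat.EC.Weil.galoisRepDet_eq_cyclotomic_prime (W.map (Int.castRingHom ℚ))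
    (by rw [WeierstrassCurve.map_Δ]; simpa using hW) (Fact.out : p.Prime)
    (ExtCitation.card_rootsOfUnity_eq_self p) σ
  rw [← Fermat.CFT.cycChar_frobenius (q := p) hℓ hℓp hA hσ, Fermat.CFT.cycChar, MonoidHom.mk'_apply,
    ← hd, Point.galoisRepDet_apply, LinearEquiv.coe_det]
  rfl

/-- **Trace of Frobenius on `E[p]`** is `a_ℓ`, for a good prime `ℓ ≠ p`. -/
theorem galoisTrace_frobenius (hℓ : ℓ.Prime) (hℓp : ℓ ≠ p)
    (hgood : ¬ (ℓ : ℤ) ∣ W.Δ) {A : ValuationSubring ℚbar} (hA : A.LiesOverPrime ℓ) {σ : Γℚ}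
    (hσ : A.IsFrobeniusAt σ ℓ) :
    Point.galoisTrace (K := ℚbar) ℚ (W.map (Int.castRingHom ℚ)).toAffine p σ =
      (W.apOfModel ℓ : ZMod p) := by
  have := Fact.mk hℓ
  have hp : p.Prime := Fact.out
  have hW : W.Δ ≠ 0 := fun e => hgood (e ▸ dvd_zero _)
  obtain ⟨h2, hfin⟩ := finrank_torsion W (p := p) hW
  set L := Point.galoisRepModuleEnd (K := ℚbar) ℚ (W.map (Int.castRingHom ℚ)).toAffine p σ with hL
  set a : ZMod p := (W.apOfModel ℓ : ZMod p) with ha
  set d : ZMod p := (ℓ : ZMod p) with hd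
  have hdet : LinearMap.det L = d := det_frobenius W hW hℓ hℓp hA hσ
  have hd0 : d ≠ 0 := by
    rw [hd, Ne, ZMod.natCast_eq_zero_iff]
    exact fun h => hℓp ((Nat.prime_dvd_prime_iff_eq hp hℓ).mp h).symm
  have hrel : L * L - a • L + d • 1 = 0 := by
    refine LinearMap.ext fun x => ?_
    have hx : p • (x : ((W.map (Int.castRingHom ℚ)).toAffine⁄ℚbar).Point) = 0 := by
      rw [← natCast_zsmul]; exact (Submodule.mem_torsionBy_iff _ _).mp x.2
    have h := frobenius_relation (W := W) ⟨hℓ, hA⟩ hgood hσ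
      (fun h => hℓp ((Nat.prime_dvd_prime_iff_eq hℓ hp).mp h)) hx
    apply Subtype.ext
    simp only [ha, hd, LinearMap.add_apply, LinearMap.sub_apply, Module.End.mul_apply,
      LinearMap.smul_apply, Module.End.one_apply, LinearMap.zero_apply, hL,
      Point.galoisRepModuleEnd_apply, Int.cast_smul_eq_zsmul, Nat.cast_smul_eq_nsmul,
      Submodule.coe_add, AddSubgroupClass.coe_sub, Submodule.coe_smul_of_tower,
      Submodule.coe_zero, natCast_zsmul] at h ⊢
    exact h
  -- Cayley–Hamilton in dimension two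
  let B := Module.finBasisOfFinrankEq (ZMod p) (torsion W p) h2
  set M := LinearMap.toMatrix B B L with hM
  have hrelM : M * M - a • M + d • 1 = 0 := by
    have e : LinearMap.toMatrixAlgEquiv B (L * L - a • L + d • 1) = 0 := by rw [hrel, map_zero]
    simp only [map_add, map_sub, map_mul, map_smul, map_one] at e
    exact e
  have htr : Point.galoisTrace (K := ℚbar) ℚ (W.map (Int.castRingHom ℚ)).toAffine p
      σ = M.trace := by
    rw [Point.galoisTrace_def, ← hL, LinearMap.trace_eq_matrix_trace _ B]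
  have hdM : M.det = d := by rw [hM, LinearMap.det_toMatrix, hdet]
  rw [htr]
  have hCH : M * M - M.trace • M + M.det • 1 = 0 := by
    ext i j
    fin_cases i <;> fin_cases j <;>
      simp [Matrix.mul_apply, Fin.sum_univ_two, Matrix.trace_fin_two, Matrix.det_fin_two] <;> ring
  rw [hdM] at hCH
  have hdiff : (M.trace - a) • M = 0 := by
    rw [sub_smul]
    linear_combination (norm := abel) hrelM - hCH
  by_contra hne
  have : M = 0 := (smul_eq_zero.mp hdiff).resolve_left (sub_ne_zero.mpr hne)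
  rw [this, Matrix.det_zero] at hdM
  exact hd0 hdM.symm

end Fermat.FR
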